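import Mathlib
import Fermat.Prelude.Def_EllipticCurve_FrobeniusTrace

set_option autoImplicit false

open scoped Pointwise
open Polynomial

namespace Fermat.Agent.Frob

local notation "Qbar" => AlgebraicClosure ℚ
local notation "GQ" => (AlgebraicClosure ℚ ≃ₐ[ℚ] AlgebraicClosure ℚ)
local notation "Zbar" => integralClosure ℤ (AlgebraicClosure ℚ)

/-- Integral elements lie in every valuation subring. -/
theorem mem_of_isIntegral (A : ValuationSubring Qbar) {x : Qbar} (hx : IsIntegral ℤ x) : x ∈ A := by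
  have h1 : IsIntegral A x := hx.tower_top
  obtain ⟨y, hy⟩ := (IsIntegrallyClosed.isIntegral_iff (R := A) (K := Qbar)).mp h1
  rw [← hy]
  exact y.2

/-- There is a valuation subring over each prime. -/
theorem exists_liesOverPrime {l : ℕ} (hl : l.Prime) :
    ∃ A : ValuationSubring Qbar, A.LiesOverPrime l := by
  have hP : (Ideal.span {(l : ℤ)}).IsPrime := by
    rw [Ideal.span_singleton_prime (by exact_mod_cast hl.ne_zero)]
    exact Nat.prime_iff_prime_int.mp hl
  let R := Localization.AtPrime (Ideal.span {(l : ℤ)})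
  let f : R →+* Qbar := IsLocalization.lift (M := (Ideal.span {(l : ℤ)}).primeCompl)
    (g := algebraMap ℤ Qbar) (by
      intro y
      apply IsUnit.mk0
      intro h0
      have : (y : ℤ) = 0 := by
        have := (FaithfulSMul.algebraMap_injective ℤ Qbar) (h0.trans (map_zero _).symm)
        exact this
      exact y.2 (this ▸ Ideal.zero_mem _))
  obtain ⟨A, h, hloc⟩ := IsLocalRing.exists_factor_valuationRing f
  refine ⟨A, ?_⟩
  have hnu : ¬ IsUnit (algebraMap ℤ R (l : ℤ)) := by
    intro hu
    have := (IsLocalization.AtPrime.isUnit_to_map_iff R (Ideal.span {(l : ℤ)}) (l : ℤ)).mp hu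
    exact this (Ideal.mem_span_singleton_self _)
  have hnu2 : ¬ IsUnit (f.codRestrict A.toSubring h (algebraMap ℤ R (l : ℤ))) := by
    intro hu
    exact hnu (hloc.map_nonunit _ hu)
  have hfl : f (algebraMap ℤ R (l : ℤ)) = (l : Qbar) := by
    simp [f]
  rw [ValuationSubring.LiesOverPrime, ValuationSubring.mem_nonunits_iff_exists_mem_maximalIdeal]
  have hmem : (l : Qbar) ∈ A := by
    rw [← hfl]; exact h _
  refine ⟨hmem, ?_⟩
  rw [IsLocalRing.mem_maximalIdeal, mem_nonunits_iff]
  intro hu
  apply hnu2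
  convert hu using 1
  exact Subtype.ext hfl

theorem mul_mem_nonunits (A : ValuationSubring Qbar) {a x : Qbar} (ha : a ∈ A.nonunits)
    (hx : x ∈ A) : a * x ∈ A.nonunits := by
  rw [ValuationSubring.mem_nonunits_iff] at ha ⊢
  rw [← ValuationSubring.valuation_le_one_iff] at hx
  rw [map_mul]
  exact mul_lt_one_of_lt_of_le ha hx

theorem horner (A : ValuationSubring Qbar) {x : Qbar} (hx : x ∈ A) :
    ∀ (n : ℕ) (p : Polynomial Zbar), p.natDegree = n → aeval x p = 0 →
      (∃ i, ((p.coeff i : Zbar) : Qbar) ∉ A.nonunits) →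
      ∃ s : Zbar, (s : Qbar) ∉ A.nonunits ∧ IsIntegral ℤ ((s : Qbar) * x) := by
  intro n
  induction n using Nat.strong_induction_on with
  | _ n ih =>
    intro p hpn hp0 ⟨i, hi⟩
    have hint : IsIntegral ℤ ((p.leadingCoeff : Qbar) * x) := by
      have h1 : IsIntegral Zbar (p.leadingCoeff • x) := isIntegral_leadingCoeff_smul p x hp0
      exact isIntegral_trans _ h1
    by_cases ha : (p.leadingCoeff : Qbar) ∈ A.nonunits
    · rcases Nat.eq_zero_or_pos n with hn0 | hnpos
      · exfalso
        rw [hn0] at hpn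
        rw [Polynomial.eq_C_of_natDegree_eq_zero hpn] at hp0 hi
        simp only [aeval_C] at hp0
        have h0 : p.coeff 0 = 0 := by
          apply Subtype.ext
          simpa using hp0
        rw [h0] at hi
        simp at hi
      · obtain ⟨m, rfl⟩ : ∃ m, n = m + 1 := ⟨n - 1, by omega⟩
        let b : Zbar := ⟨(p.leadingCoeff : Qbar) * x, hint⟩
        have hb : (b : Qbar) ∈ A.nonunits := mul_mem_nonunits A ha hx
        let p' : Polynomial Zbar := p.eraseLead + C b * X ^ m
        have hdeg : p'.natDegree ≤ m := by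
          apply Polynomial.natDegree_add_le_of_degree_le
          · have := Polynomial.eraseLead_natDegree_le p
            omega
          · exact Polynomial.natDegree_C_mul_X_pow_le _ _
        have hp'0 : aeval x p' = 0 := by
          have h1 : aeval x p = aeval x p.eraseLead + (p.leadingCoeff : Qbar) * x ^ (m + 1) := by
            conv_lhs => rw [← Polynomial.eraseLead_add_C_mul_X_pow p]
            rw [hpn]
            simp
          have h2 : aeval x p' = aeval x p.eraseLead + (b : Qbar) * x ^ m := by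
            simp [p']
          rw [h2]
          rw [hp0] at h1
          have : (b : Qbar) = (p.leadingCoeff : Qbar) * x := rfl
          rw [this]
          linear_combination -h1
        have hine : i ≠ p.natDegree := by
          intro h
          apply hi
          rw [h]
          exact ha
        have hcoeff : ((p'.coeff i : Zbar) : Qbar) ∉ A.nonunits := by
          have h1 : p'.coeff i = p.coeff i + (if i = m then b else 0) := by
            simp only [p', coeff_add, Polynomial.eraseLead_coeff_of_ne i hine, coeff_C_mul_X_pow]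
          rw [h1]
          split_ifs with him
          · intro hmem
            apply hi
            have : ((p.coeff i : Zbar) : Qbar) = ((p.coeff i + b : Zbar) : Qbar) - (b : Qbar) := by
              push_cast; ring
            rw [this]
            exact A.nonunits.sub_mem hmem hb
          · simpa using hi
        exact ih p'.natDegree (by omega) p' rfl hp'0 ⟨i, hcoeff⟩
    · exact ⟨p.leadingCoeff, ha, hint⟩


theorem int_not_mem_nonunits (A : ValuationSubring Qbar) {l : ℕ} (hl : l.Prime)
    (hA : A.LiesOverPrime l) {c : ℤ} (hc : ¬ (l : ℤ) ∣ c) : (c : Qbar) ∉ A.nonunits := by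
  intro hmem
  have hcop : IsCoprime (l : ℤ) c :=
    (Nat.prime_iff_prime_int.mp hl).coprime_iff_not_dvd.mpr hc
  obtain ⟨u, v, huv⟩ := hcop
  have h1 : (1 : Qbar) = (l : Qbar) * (u : Qbar) + (c : Qbar) * (v : Qbar) := by
    have := congrArg (fun z : ℤ => (z : Qbar)) huv
    push_cast at this
    rw [← this]; ring
  have hu : (u : Qbar) ∈ A := mem_of_isIntegral A (by simpa using (isIntegral_algebraMap (R := ℤ) (A := Qbar) (x := u)))
  have hv : (v : Qbar) ∈ A := mem_of_isIntegral A (by simpa using (isIntegral_algebraMap (R := ℤ) (A := Qbar) (x := v)))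
  have h2 : (1 : Qbar) ∈ A.nonunits := by
    rw [h1]
    exact A.nonunits.add_mem (mul_mem_nonunits A hA hu) (mul_mem_nonunits A hmem hv)
  rw [ValuationSubring.mem_nonunits_iff, map_one] at h2
  exact lt_irrefl _ h2

theorem exists_denominator (A : ValuationSubring Qbar) {l : ℕ} (hl : l.Prime)
    (hA : A.LiesOverPrime l) {x : Qbar} (hx : x ∈ A) :
    ∃ s : Zbar, (s : Qbar) ∉ A.nonunits ∧ IsIntegral ℤ ((s : Qbar) * x) := by
  have halg : IsAlgebraic ℤ x := by
    have h1 : IsAlgebraic ℚ x := (AlgebraicClosure.isAlgebraic ℚ).isAlgebraic x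
    exact (IsFractionRing.isAlgebraic_iff ℤ ℚ Qbar).mpr h1
  obtain ⟨p, hp0, hpx⟩ := halg
  have hprim : p.primPart.IsPrimitive := p.isPrimitive_primPart
  have hpx' : aeval x p.primPart = 0 := by
    have := Polynomial.aeval_primPart_eq_zero (S := Qbar) hp0 hpx
    exact this
  have hex : ∃ i, ¬ (l : ℤ) ∣ p.primPart.coeff i := by
    by_contra hcon
    push Not at hcon
    have hdvd : C (l : ℤ) ∣ p.primPart := (Polynomial.C_dvd_iff_dvd_coeff _ _).mpr hcon
    have hu := hprim _ hdvd
    have := Int.isUnit_iff.mp hu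
    have h2 := hl.two_le
    omega
  obtain ⟨i, hi⟩ := hex
  let q : Polynomial Zbar := p.primPart.map (algebraMap ℤ Zbar)
  refine horner A hx q.natDegree q rfl ?_ ⟨i, ?_⟩
  · simp only [q, aeval_map_algebraMap]
    exact hpx'
  · simp only [q, coeff_map]
    have : ((algebraMap ℤ Zbar (p.primPart.coeff i) : Zbar) : Qbar) = ((p.primPart.coeff i : ℤ) : Qbar) := by
      simp
    rw [this]
    exact int_not_mem_nonunits A hl hA hi

theorem isAlgebraicQbar : Algebra.IsAlgebraic ℚ Qbar := AlgebraicClosure.isAlgebraic ℚ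

theorem isAlgClosureQbar : IsAlgClosure ℚ Qbar := ⟨inferInstance, isAlgebraicQbar⟩

theorem isGaloisQbar : IsGalois ℚ Qbar := by
  have := isAlgClosureQbar
  have := isAlgebraicQbar
  have : Normal ℚ Qbar := IsAlgClosure.normal ℚ Qbar
  exact {}

/-- The prime ideal of `Zbar` cut out by a valuation subring. -/
def primeOf (A : ValuationSubring Qbar) : Ideal Zbar where
  carrier := {b | (b : Qbar) ∈ A.nonunits}
  add_mem' := fun ha hb => A.nonunits.add_mem ha hb
  zero_mem' := A.nonunits.zero_mem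
  smul_mem' := fun c x hx => by
    have : ((c • x : Zbar) : Qbar) = (x : Qbar) * (c : Qbar) := by
      simp [mul_comm]
    simp only [Set.mem_ofPred_eq]
    rw [this]
    exact mul_mem_nonunits A hx (mem_of_isIntegral A c.2)

theorem mem_primeOf (A : ValuationSubring Qbar) (b : Zbar) :
    b ∈ primeOf A ↔ (b : Qbar) ∈ A.nonunits := Iff.rfl

theorem primeOf_isPrime (A : ValuationSubring Qbar) : (primeOf A).IsPrime := by
  refine ⟨?_, ?_⟩
  · intro h
    have h1 : (1 : Zbar) ∈ primeOf A := h ▸ Submodule.mem_top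
    rw [mem_primeOf, ValuationSubring.mem_nonunits_iff] at h1
    simp at h1
  · intro x y hxy
    by_contra hcon
    push Not at hcon
    obtain ⟨hx, hy⟩ := hcon
    rw [mem_primeOf, ValuationSubring.mem_nonunits_iff] at hx hy hxy
    have hx1 : A.valuation (x : Qbar) = 1 :=
      le_antisymm ((A.valuation_le_one_iff _).mpr (mem_of_isIntegral A x.2)) (not_lt.mp hx)
    have hy1 : A.valuation (y : Qbar) = 1 :=
      le_antisymm ((A.valuation_le_one_iff _).mpr (mem_of_isIntegral A y.2)) (not_lt.mp hy)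
    have : ((x * y : Zbar) : Qbar) = (x : Qbar) * (y : Qbar) := rfl
    rw [this, map_mul, hx1, hy1] at hxy
    simp at hxy

theorem isInvariant : Algebra.IsInvariant ℤ Zbar GQ := by
  have := isGaloisQbar
  refine ⟨fun b hb => ?_⟩
  have h1 : (b : Qbar) ∈ Set.range (algebraMap ℚ Qbar) := by
    rw [InfiniteGalois.mem_range_algebraMap_iff_fixed]
    intro f
    exact congrArg Subtype.val (hb f)
  obtain ⟨q, hq⟩ := h1
  have h2 : IsIntegral ℤ q := by
    have : IsIntegral ℤ (algebraMap ℚ Qbar q) := hq ▸ b.2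
    exact (isIntegral_algebraMap_iff (algebraMap ℚ Qbar).injective).mp this
  obtain ⟨m, hm⟩ := IsIntegrallyClosed.isIntegral_iff.mp h2
  refine ⟨m, Subtype.ext ?_⟩
  rw [← hq, ← hm]
  simp


theorem continuousSMul_Zbar [TopologicalSpace Zbar] [DiscreteTopology Zbar] :
    ContinuousSMul GQ Zbar := by
  have := isAlgebraicQbar
  rw [continuousSMul_iff_stabilizer_isOpen]
  intro b
  have h := stabilizer_isOpen_of_isIntegral (K := ℚ) (L := Qbar) (b : Qbar)
  convert h using 1
  ext g
  simp only [SetLike.mem_coe, MulAction.mem_stabilizer_iff]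
  exact ⟨fun h => congrArg Subtype.val h, fun h => Subtype.ext h⟩

/-- A Frobenius element at the level of `Zbar`. -/
theorem exists_frob_Zbar (A : ValuationSubring Qbar) {l : ℕ} (hl : l.Prime)
    (hA : A.LiesOverPrime l) :
    ∃ σ : GQ, σ • primeOf A = primeOf A ∧ ∀ b : Zbar, σ • b - b ^ l ∈ primeOf A := by
  have := isGaloisQbar
  have := isAlgebraicQbar
  have := isInvariant
  have hQ := primeOf_isPrime A
  let _ : TopologicalSpace Zbar := ⊥
  have : DiscreteTopology Zbar := ⟨rfl⟩
  have := continuousSMul_Zbar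
  set Q := primeOf A with hQdef
  let P := Q.under ℤ
  have hlQ : ((l : ℕ) : Zbar ⧸ Q) = 0 := by
    have : ((l : Zbar) : Zbar ⧸ Q) = 0 := by
      rw [Ideal.Quotient.eq_zero_iff_mem, hQdef, mem_primeOf]
      have h2 : (((l : ℕ) : Zbar) : Qbar) = (l : Qbar) := by simp
      rw [h2]
      exact hA
    simpa using this
  have : CharP (Zbar ⧸ Q) l := (CharP.charP_iff_prime_eq_zero hl).mpr hlQ
  have : Fact l.Prime := ⟨hl⟩
  have hinj : Function.Injective (frobenius (Zbar ⧸ Q) l) := frobenius_inj _ _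
  have hsurj : Function.Surjective (frobenius (Zbar ⧸ Q) l) := by
    intro y
    obtain ⟨b, rfl⟩ := Ideal.Quotient.mk_surjective y
    obtain ⟨c, hc⟩ := IsAlgClosed.exists_pow_nat_eq (b : Qbar) hl.pos
    have hcint : IsIntegral ℤ c := IsIntegral.of_pow hl.pos (hc ▸ b.2)
    refine ⟨Ideal.Quotient.mk Q ⟨c, hcint⟩, ?_⟩
    rw [frobenius_def, ← map_pow]
    congr 1
    exact Subtype.ext hc
  let e : (Zbar ⧸ Q) ≃+* (Zbar ⧸ Q) := RingEquiv.ofBijective (frobenius (Zbar ⧸ Q) l) ⟨hinj, hsurj⟩
  let e' : (Zbar ⧸ Q) ≃ₐ[ℤ ⧸ P] (Zbar ⧸ Q) := AlgEquiv.ofRingEquiv (f := e) (by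
    intro r
    obtain ⟨n, rfl⟩ := Ideal.Quotient.mk_surjective r
    have : algebraMap (ℤ ⧸ P) (Zbar ⧸ Q) (Ideal.Quotient.mk P n) = ((n : ℤ) : Zbar ⧸ Q) := by
      have h1 : (Ideal.Quotient.mk P n) = ((n : ℤ) : ℤ ⧸ P) := by simp
      rw [h1, map_intCast]
    rw [this, map_intCast])
  obtain ⟨⟨σ, hσ⟩, hσe⟩ := Ideal.Quotient.stabilizerHom_surjective_of_profinite (G := GQ) P Q e'
  refine ⟨σ, hσ, fun b => ?_⟩
  have h1 := congrArg (fun f => f (Ideal.Quotient.mk Q b)) hσe
  simp only [Ideal.Quotient.stabilizerHom_apply] at h1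
  rw [← Ideal.Quotient.eq]
  rw [map_pow]
  exact h1


theorem valuation_eq_one (A : ValuationSubring Qbar) {s : Zbar} (hs : (s : Qbar) ∉ A.nonunits) :
    A.valuation (s : Qbar) = 1 := by
  rw [ValuationSubring.mem_nonunits_iff] at hs
  exact le_antisymm ((A.valuation_le_one_iff _).mpr (mem_of_isIntegral A s.2)) (not_lt.mp hs)

theorem smul_not_mem_nonunits (A : ValuationSubring Qbar) {τ : GQ}
    (hτ : τ • primeOf A = primeOf A) {s : Zbar} (hs : (s : Qbar) ∉ A.nonunits) :
    ((τ • s : Zbar) : Qbar) ∉ A.nonunits := by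
  intro h
  apply hs
  rw [← mem_primeOf] at h ⊢
  rw [← hτ] at h
  exact Ideal.smul_mem_pointwise_smul_iff.mp h

theorem map_mem_of_stab (A : ValuationSubring Qbar) {l : ℕ} (hl : l.Prime)
    (hA : A.LiesOverPrime l) {τ : GQ} (hτ : τ • primeOf A = primeOf A) {x : Qbar} (hx : x ∈ A) :
    τ x ∈ A := by
  obtain ⟨s, hs, hsx⟩ := exists_denominator A hl hA hx
  have h1 : A.valuation ((τ • s : Zbar) : Qbar) = 1 :=
    valuation_eq_one A (smul_not_mem_nonunits A hτ hs)
  have h2 : τ ((s : Qbar) * x) ∈ A :=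
    mem_of_isIntegral A (hsx.map τ.toAlgHom.toRingHom.toIntAlgHom)
  rw [← ValuationSubring.valuation_le_one_iff] at h2 ⊢
  have h3 : ((τ • s : Zbar) : Qbar) = τ (s : Qbar) := rfl
  rw [map_mul, map_mul, ← h3, h1, one_mul] at h2
  exact h2

theorem mem_decompositionSubgroup (A : ValuationSubring Qbar) {l : ℕ} (hl : l.Prime)
    (hA : A.LiesOverPrime l) {σ : GQ} (hσ : σ • primeOf A = primeOf A) :
    σ ∈ A.decompositionSubgroup ℚ := by
  have hσ' : σ⁻¹ • primeOf A = primeOf A := by
    conv_lhs => rw [← hσ]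
    rw [inv_smul_smul]
  rw [MulAction.mem_stabilizer_iff]
  apply le_antisymm
  · intro x hx
    rw [ValuationSubring.mem_pointwise_smul_iff_inv_smul_mem] at hx
    have := map_mem_of_stab A hl hA hσ hx
    have h2 : σ (σ⁻¹ • x) = x := by
      change σ • (σ⁻¹ • x) = x
      rw [smul_inv_smul]
    rwa [h2] at this
  · intro x hx
    rw [ValuationSubring.mem_pointwise_smul_iff_inv_smul_mem]
    exact map_mem_of_stab A hl hA hσ' hx

/-- Existence of a Frobenius element for every valuation subring over a prime. -/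
theorem exists_isFrobeniusAt (A : ValuationSubring Qbar) {l : ℕ} (hl : l.Prime)
    (hA : A.LiesOverPrime l) : ∃ σ : GQ, A.IsFrobeniusAt σ l := by
  obtain ⟨σ, hσ, hfrob⟩ := exists_frob_Zbar A hl hA
  have hdec := mem_decompositionSubgroup A hl hA hσ
  refine ⟨σ, hdec, fun y => ?_⟩
  obtain ⟨a, rfl⟩ := IsLocalRing.residue_surjective y
  obtain ⟨s, hs, hsx⟩ := exists_denominator A hl hA a.2
  -- elements of `A`
  let sA : A := ⟨(s : Qbar), mem_of_isIntegral A s.2⟩
  let b : Zbar := ⟨(s : Qbar) * (a : Qbar), hsx⟩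
  let bA : A := ⟨(b : Qbar), mem_of_isIntegral A b.2⟩
  have hba : bA = sA * a := rfl
  let g : A.decompositionSubgroup ℚ := ⟨σ, hdec⟩
  have key : ∀ c : Zbar, ∀ hc : (c : Qbar) ∈ A,
      g • IsLocalRing.residue A ⟨(c : Qbar), hc⟩ = (IsLocalRing.residue A ⟨(c : Qbar), hc⟩) ^ l := by
    intro c hc
    rw [← IsLocalRing.ResidueField.residue_smul, ← map_pow, ← sub_eq_zero, ← map_sub,
      IsLocalRing.residue_eq_zero_iff]
    have h1 := hfrob c
    rw [mem_primeOf, ValuationSubring.mem_nonunits_iff_exists_mem_maximalIdeal] at h1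
    obtain ⟨h2, h3⟩ := h1
    exact h3
  have hs0 : IsLocalRing.residue A sA ≠ 0 := by
    intro h0
    rw [IsLocalRing.residue_eq_zero_iff] at h0
    apply hs
    rw [ValuationSubring.mem_nonunits_iff_exists_mem_maximalIdeal]
    exact ⟨_, h0⟩
  have h1 := key b (mem_of_isIntegral A b.2)
  have h2 := key s (mem_of_isIntegral A s.2)
  change g • IsLocalRing.residue A bA = (IsLocalRing.residue A bA) ^ l at h1
  change g • IsLocalRing.residue A sA = (IsLocalRing.residue A sA) ^ l at h2
  rw [hba, map_mul, smul_mul', h2, mul_pow] at h1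
  exact mul_left_cancel₀ (pow_ne_zero _ hs0) h1

end Fermat.Agent.Frob
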