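import Mathlib

set_option autoImplicit false

namespace Fermat.Agent.CyclotomicPID

open NumberField Polynomial Ideal IsCyclotomicExtension IsCyclotomicExtension.Rat RingOfIntegers
  NumberField.Ideal InfinitePlace Module

open scoped Real Nat

universe u

variable (K : Type u) [Field K] [NumberField K]


/-- A criterion for the existence of a principal prime above `q` in a cyclotomic field. -/
theorem exists_principal_prime (m : ℕ) [NeZero m] [IsCyclotomicExtension {m} ℚ K]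
    (q : ℕ) [Fact q.Prime] (Q : ℤ[X])
    (hirr : Irreducible (Q.map (Int.castRingHom (ZMod q))))
    (hmonic : (Q.map (Int.castRingHom (ZMod q))).Monic)
    (hdvd : Q.map (Int.castRingHom (ZMod q)) ∣ cyclotomic m (ZMod q))
    (α : 𝓞 K)
    (h1 : α ∣ (q : 𝓞 K)) (h2 : α ∣ aeval (zeta_spec m ℚ K).toInteger Q)
    (h3 : α ∈ span {(q : 𝓞 K), aeval (zeta_spec m ℚ K).toInteger Q}) :
    ∃ P ∈ primesOver (span {(q : ℤ)}) (𝓞 K), Submodule.IsPrincipal P := by
  set ζ := (zeta_spec m ℚ K).toInteger with hζ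
  have h₁ : ¬ q ∣ exponent ζ := by
    rw [exponent_eq_one_iff.mpr <| adjoin_singleton_eq_top (zeta_spec m ℚ K)]
    exact (Fact.out : q.Prime).not_dvd_one
  have hmin : minpoly ℤ ζ = cyclotomic m ℤ := by
    rw [cyclotomic_eq_minpoly (zeta_spec m ℚ K) (NeZero.pos _),
      ← (zeta_spec m ℚ K).coe_toInteger, ← RingOfIntegers.minpoly_coe ζ]
    rfl
  have hQ : Q.map (Int.castRingHom (ZMod q)) ∈ monicFactorsMod ζ q := by
    rw [Multiset.mem_toFinset, Polynomial.mem_normalizedFactors_iff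
      (map_monic_ne_zero (minpoly.monic ζ.isIntegral))]
    refine ⟨hirr, hmonic, ?_⟩
    rw [hmin, map_cyclotomic_int]
    exact hdvd
  refine ⟨_, ((primesOverSpanEquivMonicFactorsMod h₁).symm ⟨_, hQ⟩).2, ?_⟩
  rw [primesOverSpanEquivMonicFactorsMod_symm_apply_eq_span h₁ hQ]
  refine ⟨α, ?_⟩
  apply le_antisymm
  · rw [Ideal.span_le]
    intro x hx
    rcases hx with rfl | hx
    · exact Ideal.mem_span_singleton.2 h1
    · rw [Set.mem_singleton_iff] at hx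
      subst hx
      exact Ideal.mem_span_singleton.2 h2
  · rw [Ideal.submodule_span_eq, Ideal.span_le]
    intro x hx
    rw [Set.mem_singleton_iff] at hx
    subst hx
    exact h3



theorem minkowski_floor_le (p : ℕ) [hp : Fact p.Prime] [IsCyclotomicExtension {p} ℚ K]
    (B : ℕ) (s : ℝ) (hs : 0 ≤ s) (hs2 : (p : ℝ) ^ (p - 2) ≤ s ^ 2)
    (h : (4 / 3.1415 : ℝ) ^ ((p - 1) / 2) * (((p - 1)! : ℝ) / ((p - 1 : ℕ) : ℝ) ^ (p - 1) * s)
      < B + 1) :
    ⌊(4 / π) ^ nrComplexPlaces K *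
      (((finrank ℚ K)! : ℝ) / (finrank ℚ K) ^ (finrank ℚ K) * √|(discr K : ℝ)|)⌋₊ ≤ B := by
  have hfr : finrank ℚ K = p - 1 := by
    rw [IsCyclotomicExtension.finrank (n := p) K (cyclotomic.irreducible_rat hp.out.pos),
      Nat.totient_prime hp.out]
  have hnc : nrComplexPlaces K = (p - 1) / 2 := by
    rw [nrComplexPlaces_eq_totient_div_two p, Nat.totient_prime hp.out]
  have hd : |(discr K : ℝ)| = (p : ℝ) ^ (p - 2) := by
    rw [discr_prime p K]
    push_cast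
    rw [abs_mul, abs_pow, abs_pow, abs_neg, abs_one, one_pow, one_mul, Nat.abs_cast]
  rw [hfr, hnc, hd]
  have hsq : √((p : ℝ) ^ (p - 2)) ≤ s := Real.sqrt_le_iff.2 ⟨hs, hs2⟩
  have hpi : (4 / π : ℝ) ≤ 4 / 3.1415 := by
    apply div_le_div_of_nonneg_left (by norm_num) (by norm_num) Real.pi_gt_d4.le
  have hlt : (4 / π) ^ ((p - 1) / 2) *
      (((p - 1)! : ℝ) / ((p - 1 : ℕ) : ℝ) ^ (p - 1) * √((p : ℝ) ^ (p - 2))) < B + 1 := by
    refine lt_of_le_of_lt ?_ h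
    gcongr
  have := Nat.floor_lt' (n := B + 1) (by omega) |>.2 (by push_cast; exact hlt)
  omega



theorem exists_prime_lt (m : ℕ) [NeZero m] [IsCyclotomicExtension {m} ℚ K]
    (q : ℕ) [hq : Fact q.Prime] (hqm : ¬ q ∣ m) (B L : ℕ) (hL : B < 2 ^ L)
    (hB : ∀ j ∈ Finset.Icc 1 L, q ^ j ≤ B → q ^ j % m ≠ 1 % m) :
    ∃ P ∈ primesOver (span {(q : ℤ)}) (𝓞 K), B < q ^ P.inertiaDeg ℤ := by
  obtain ⟨⟨P, hP1, hP2⟩⟩ := (span {(q : ℤ)}).nonempty_primesOver (S := 𝓞 K)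
  refine ⟨P, ⟨hP1, hP2⟩, ?_⟩
  rw [inertiaDeg_eq_of_not_dvd q K P hqm]
  by_contra hcon
  rw [not_lt] at hcon
  have hcop : q.Coprime m := hq.out.coprime_iff_not_dvd.mpr hqm
  have hpos : 0 < orderOf (q : ZMod m) := by
    rw [orderOf_pos_iff]
    have := isOfFinOrder_of_finite (ZMod.unitOfCoprime q hcop)
    rw [isOfFinOrder_iff_pow_eq_one] at this ⊢
    obtain ⟨n, hn, hn1⟩ := this
    refine ⟨n, hn, ?_⟩
    have := congrArg Units.val hn1
    simpa using this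
  have hle : orderOf (q : ZMod m) ≤ L := by
    by_contra hlt
    rw [not_le] at hlt
    have h1 : 2 ^ L ≤ q ^ orderOf (q : ZMod m) :=
      (Nat.pow_le_pow_left hq.out.two_le L).trans (Nat.pow_le_pow_right hq.out.pos hlt.le)
    omega
  apply hB _ (Finset.mem_Icc.2 ⟨hpos, hle⟩) hcon
  have h1 := pow_orderOf_eq_one (q : ZMod m)
  have h2 : ((q ^ orderOf (q : ZMod m) : ℕ) : ZMod m) = ((1 : ℕ) : ZMod m) := by
    push_cast
    exact h1
  exact (ZMod.natCast_eq_natCast_iff' _ _ _).1 h2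

theorem exists_principal_ramified (p : ℕ) [hp : Fact p.Prime] [IsCyclotomicExtension {p} ℚ K] :
    ∃ P ∈ primesOver (span {(p : ℤ)}) (𝓞 K), Submodule.IsPrincipal P := by
  refine ⟨span {(zeta_spec p ℚ K).toInteger - 1}, ⟨?_, ?_⟩, ⟨_, rfl⟩⟩
  · exact isPrime_span_zeta_sub_one' p (zeta_spec p ℚ K)
  · have : IsCyclotomicExtension {p ^ (0 + 1)} ℚ K := by
      rw [zero_add, pow_one]
      infer_instance
    have hz : IsPrimitiveRoot (zeta p ℚ K) (p ^ (0 + 1)) := by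
      rw [zero_add, pow_one]
      exact zeta_spec p ℚ K
    exact liesOver_span_zeta_sub_one p 0 hz


theorem seven_pid [IsCyclotomicExtension {7} ℚ K] : IsPrincipalIdealRing (𝓞 K) := by
  have : Fact (Nat.Prime 7) := ⟨by norm_num⟩
  have : IsGalois ℚ K := IsCyclotomicExtension.isGalois {7} ℚ K
  have hB := minkowski_floor_le K 7 4 129.65 (by norm_num) (by norm_num)
    (by norm_num [Nat.factorial])
  apply isPrincipalIdealRing_of_isPrincipal_of_lt_or_isPrincipal_of_mem_primesOver_of_mem_Icc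
  intro q hq hqp
  have : Fact q.Prime := ⟨hqp⟩
  rw [Finset.mem_Icc] at hq
  have hq4 : q ≤ 4 := hq.2.trans hB
  have hq1 := hq.1
  have key : ∃ P ∈ primesOver (span {(q : ℤ)}) (𝓞 K), 4 < q ^ P.inertiaDeg ℤ := by
    apply exists_prime_lt K 7 q _ 4 3 (by norm_num)
    · interval_cases q <;> first | decide | exact absurd hqp (by norm_num)
    · intro h
      have := (Nat.prime_dvd_prime_iff_eq hqp (by norm_num)).1 h
      omega
  obtain ⟨P, hP, hlt⟩ := key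
  exact ⟨P, hP, Or.inl (lt_of_le_of_lt hB hlt)⟩


theorem exists_principal_of_root (m : ℕ) [NeZero m] [IsCyclotomicExtension {m} ℚ K]
    (q : ℕ) [Fact q.Prime] (c : ℤ)
    (hroot : (cyclotomic m (ZMod q)).IsRoot (c : ZMod q))
    (α : 𝓞 K)
    (h1 : α ∣ (q : 𝓞 K)) (h2 : α ∣ (zeta_spec m ℚ K).toInteger - (c : 𝓞 K))
    (h3 : α ∈ span {(q : 𝓞 K), (zeta_spec m ℚ K).toInteger - (c : 𝓞 K)}) :
    ∃ P ∈ primesOver (span {(q : ℤ)}) (𝓞 K), Submodule.IsPrincipal P := by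
  have hmap : (X - C c : ℤ[X]).map (Int.castRingHom (ZMod q)) = X - C (c : ZMod q) := by
    simp
  have hev : aeval (zeta_spec m ℚ K).toInteger (X - C c : ℤ[X]) =
      (zeta_spec m ℚ K).toInteger - (c : 𝓞 K) := by
    simp
  apply exists_principal_prime K m q (X - C c) _ _ _ α h1
  · rw [hev]; exact h2
  · rw [hev]; exact h3
  · rw [hmap]; exact irreducible_X_sub_C _
  · rw [hmap]; exact monic_X_sub_C _
  · rw [hmap]; exact dvd_iff_isRoot.2 hroot

theorem zeta_geom_sum (p : ℕ) [hp : Fact p.Prime] [IsCyclotomicExtension {p} ℚ K] :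
    ∑ i ∈ Finset.range p, (zeta_spec p ℚ K).toInteger ^ i = 0 :=
  (zeta_spec p ℚ K).toInteger_isPrimitiveRoot.geom_sum_eq_zero hp.out.one_lt

theorem isRoot_cyclotomic_of_sum (p : ℕ) [hp : Fact p.Prime] (q : ℕ) (c : ℤ)
    (h : ∑ i ∈ Finset.range p, (c : ZMod q) ^ i = 0) :
    (cyclotomic p (ZMod q)).IsRoot (c : ZMod q) := by
  simpa only [cyclotomic_prime, IsRoot.def, eval_finsetSum, eval_pow, eval_X] using h

theorem eleven_pid [IsCyclotomicExtension {11} ℚ K] : IsPrincipalIdealRing (𝓞 K) := by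
  have : Fact (Nat.Prime 11) := ⟨by norm_num⟩
  have : IsGalois ℚ K := IsCyclotomicExtension.isGalois {11} ℚ K
  have hB := minkowski_floor_le K 11 58 48558.71 (by norm_num) (by norm_num)
    (by norm_num [Nat.factorial])
  apply isPrincipalIdealRing_of_isPrincipal_of_lt_or_isPrincipal_of_mem_primesOver_of_mem_Icc
  intro q hq hqp
  have : Fact q.Prime := ⟨hqp⟩
  rw [Finset.mem_Icc] at hq
  have hq4 : q ≤ 58 := hq.2.trans hB
  have hq1 := hq.1
  by_cases h11 : q = 11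
  · subst h11
    obtain ⟨P, hP, hpr⟩ := exists_principal_ramified K 11
    exact ⟨P, hP, Or.inr hpr⟩
  by_cases h23 : q = 23
  · subst h23
    have hz := zeta_geom_sum K 11
    simp only [Finset.sum_range_succ, Finset.sum_range_zero, zero_add, pow_zero, pow_one] at hz
    set z := (zeta_spec 11 ℚ K).toInteger with hzdef
    obtain ⟨P, hP, hpr⟩ := exists_principal_of_root K 11 23 4
      (isRoot_cyclotomic_of_sum 11 23 4 (by decide))
      (1 + z + z ^ 3)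
      ⟨-2 - 14 * z - 17 * z ^ 2 - 12 * z ^ 3 - 5 * z ^ 4 - 9 * z ^ 5 - 10 * z ^ 6 - 16 * z ^ 7
        - 6 * z ^ 8 - 15 * z ^ 9, by
        push_cast
        linear_combination (-(-25 + 9 * z - 15 * z ^ 2)) * hz⟩
      ⟨1 + 3 * z + 3 * z ^ 2 + 2 * z ^ 3 + z ^ 4 + 2 * z ^ 5 + 2 * z ^ 6 + 3 * z ^ 7 + z ^ 8
        + 3 * z ^ 9, by
        push_cast
        linear_combination (-(5 - 2 * z + 3 * z ^ 2)) * hz⟩
      (Ideal.mem_span_pair.2 ⟨3, 17 + 4 * z + z ^ 2, by push_cast; ring⟩)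
    exact ⟨P, hP, Or.inr hpr⟩
  have key : ∃ P ∈ primesOver (span {(q : ℤ)}) (𝓞 K), 58 < q ^ P.inertiaDeg ℤ := by
    apply exists_prime_lt K 11 q _ 58 6 (by norm_num)
    · interval_cases q <;> first | omega | decide | exact absurd hqp (by norm_num)
    · intro h
      exact h11 ((Nat.prime_dvd_prime_iff_eq hqp (by norm_num)).1 h)
  obtain ⟨P, hP, hlt⟩ := key
  exact ⟨P, hP, Or.inl (lt_of_le_of_lt hB hlt)⟩


theorem three_eq_zero_poly : (3 : (ZMod 3)[X]) = 0 := by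
  exact_mod_cast CharP.cast_eq_zero (ZMod 3)[X] 3

theorem map_cubic : (X ^ 3 - X - 1 : ℤ[X]).map (Int.castRingHom (ZMod 3)) = X ^ 3 - X - 1 := by
  simp

theorem natDegree_cubic : (X ^ 3 - X - 1 : (ZMod 3)[X]).natDegree = 3 := by
  compute_degree!

theorem monic_cubic : (X ^ 3 - X - 1 : (ZMod 3)[X]).Monic := by
  monicity!

theorem irreducible_cubic : Irreducible (X ^ 3 - X - 1 : (ZMod 3)[X]) := by
  apply irreducible_of_degree_le_three_of_not_isRoot
  · rw [natDegree_cubic]; decide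
  · intro x
    simp only [IsRoot.def, eval_sub, eval_pow, eval_X, eval_one]
    revert x
    decide

theorem cubic_dvd : (X ^ 3 - X - 1 : (ZMod 3)[X]) ∣ cyclotomic 13 (ZMod 3) := by
  have : Fact (Nat.Prime 13) := ⟨by norm_num⟩
  refine ⟨-1 - X ^ 2 - X ^ 3 + X ^ 5 - X ^ 7 + X ^ 8 + X ^ 9, ?_⟩
  rw [cyclotomic_prime]
  simp only [Finset.sum_range_succ, Finset.sum_range_zero, zero_add, pow_zero, pow_one]
  linear_combination (X ^ 5 + X ^ 6 + X ^ 9 + X ^ 10) * three_eq_zero_poly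

theorem thirteen_pid [IsCyclotomicExtension {13} ℚ K] : IsPrincipalIdealRing (𝓞 K) := by
  have : Fact (Nat.Prime 13) := ⟨by norm_num⟩
  have : IsGalois ℚ K := IsCyclotomicExtension.isGalois {13} ℚ K
  have hB := minkowski_floor_le K 13 306 1338715.95 (by norm_num) (by norm_num)
    (by norm_num [Nat.factorial])
  apply isPrincipalIdealRing_of_isPrincipal_of_lt_or_isPrincipal_of_mem_primesOver_of_mem_Icc
  intro q hq hqp
  have : Fact q.Prime := ⟨hqp⟩
  rw [Finset.mem_Icc] at hq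
  have hq4 : q ≤ 306 := hq.2.trans hB
  have hq1 := hq.1
  by_cases h13 : q = 13
  · subst h13
    obtain ⟨P, hP, hpr⟩ := exists_principal_ramified K 13
    exact ⟨P, hP, Or.inr hpr⟩
  have hz := zeta_geom_sum K 13
  simp only [Finset.sum_range_succ, Finset.sum_range_zero, zero_add, pow_zero, pow_one] at hz
  set z := (zeta_spec 13 ℚ K).toInteger with hzdef
  by_cases h3 : q = 3
  · subst h3
    have hev : aeval z (X ^ 3 - X - 1 : ℤ[X]) = z ^ 3 - z - 1 := by simp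
    obtain ⟨P, hP, hpr⟩ := exists_principal_prime K 13 3 (X ^ 3 - X - 1)
      (by rw [map_cubic]; exact irreducible_cubic)
      (by rw [map_cubic]; exact monic_cubic)
      (by rw [map_cubic]; exact cubic_dvd)
      (1 + z - z ^ 3)
      ⟨-1 - z ^ 2 - z ^ 3 - 2 * z ^ 5 - z ^ 7 - 2 * z ^ 8 + z ^ 9 - 3 * z ^ 10, by
        push_cast
        linear_combination (-(-4 + 3 * z)) * hz⟩
      ⟨-1, by rw [← hzdef, hev]; ring⟩
      (by
        rw [← hzdef, hev]
        exact Ideal.mem_span_pair.2 ⟨0, -1, by ring⟩)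
    exact ⟨P, hP, Or.inr hpr⟩
  by_cases h53 : q = 53
  · subst h53
    obtain ⟨P, hP, hpr⟩ := exists_principal_of_root K 13 53 36
      (isRoot_cyclotomic_of_sum 13 53 36 (by decide))
      (1 + z + z ^ 3)
      ⟨1 - 24 * z - 35 * z ^ 2 - 25 * z ^ 3 - 10 * z ^ 4 - 14 * z ^ 5 - 20 * z ^ 6 - 29 * z ^ 7
        - 16 * z ^ 8 - 23 * z ^ 9 - 7 * z ^ 10 - 36 * z ^ 11, by
        push_cast
        linear_combination (-(-52 + 29 * z - 36 * z ^ 2)) * hz⟩
      ⟨17 * z + 24 * z ^ 2 + 17 * z ^ 3 + 7 * z ^ 4 + 10 * z ^ 5 + 14 * z ^ 6 + 20 * z ^ 7 + 11 * z ^ 8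
        + 16 * z ^ 9 + 5 * z ^ 10 + 25 * z ^ 11, by
        push_cast
        linear_combination (-(36 - 20 * z + 25 * z ^ 2)) * hz⟩
      (Ideal.mem_span_pair.2 ⟨881, 1297 + 36 * z + z ^ 2, by push_cast; ring⟩)
    exact ⟨P, hP, Or.inr hpr⟩
  by_cases h79 : q = 79
  · subst h79
    obtain ⟨P, hP, hpr⟩ := exists_principal_of_root K 13 79 64
      (isRoot_cyclotomic_of_sum 13 79 64 (by decide))
      (1 + z - z ^ 4)
      ⟨24 - 25 * z - 27 * z ^ 2 + 10 * z ^ 3 - 3 * z ^ 4 - 39 * z ^ 5 - 5 * z ^ 6 - 2 * z ^ 7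
        - 18 * z ^ 8 - 38 * z ^ 9 + 16 * z ^ 10 - 35 * z ^ 11, by
        push_cast
        linear_combination (-(-55 + 54 * z - 51 * z ^ 2 + 35 * z ^ 3)) * hz⟩
      ⟨-19 + 21 * z + 22 * z ^ 2 - 8 * z ^ 3 + 3 * z ^ 4 + 32 * z ^ 5 + 4 * z ^ 6 + 2 * z ^ 7
        + 15 * z ^ 8 + 31 * z ^ 9 - 13 * z ^ 10 + 29 * z ^ 11, by
        push_cast
        linear_combination (-(45 - 44 * z + 42 * z ^ 2 - 29 * z ^ 3)) * hz⟩
      (Ideal.mem_span_pair.2 ⟨-212369, -262143 - 4096 * z - 64 * z ^ 2 - z ^ 3, by push_cast; ring⟩)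
    exact ⟨P, hP, Or.inr hpr⟩
  by_cases h131 : q = 131
  · subst h131
    obtain ⟨P, hP, hpr⟩ := exists_principal_of_root K 13 131 80
      (isRoot_cyclotomic_of_sum 13 131 80 (by decide))
      (1 - z - z ^ 3)
      ⟨111 + 78 * z + 17 * z ^ 2 + 67 * z ^ 3 + 84 * z ^ 4 + 40 * z ^ 5 + 46 * z ^ 6 + 69 * z ^ 7
        + 48 * z ^ 8 + 33 * z ^ 9 + 41 * z ^ 10 + 28 * z ^ 11, by
        push_cast
        linear_combination (-(-20 - 13 * z - 28 * z ^ 2)) * hz⟩
      ⟨-68 - 47 * z - 10 * z ^ 2 - 41 * z ^ 3 - 51 * z ^ 4 - 24 * z ^ 5 - 28 * z ^ 6 - 42 * z ^ 7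
        - 29 * z ^ 8 - 20 * z ^ 9 - 25 * z ^ 10 - 17 * z ^ 11, by
        push_cast
        linear_combination (-(12 + 8 * z + 17 * z ^ 2)) * hz⟩
      (Ideal.mem_span_pair.2 ⟨-3909, -6401 - 80 * z - z ^ 2, by push_cast; ring⟩)
    exact ⟨P, hP, Or.inr hpr⟩
  by_cases h157 : q = 157
  · subst h157
    obtain ⟨P, hP, hpr⟩ := exists_principal_of_root K 13 157 75
      (isRoot_cyclotomic_of_sum 13 157 75 (by decide))
      (1 - z + z ^ 2 + z ^ 4)
      ⟨89 + 86 * z + 42 * z ^ 2 + 77 * z ^ 3 + 67 * z ^ 4 + 25 * z ^ 5 + 37 * z ^ 6 + 56 * z ^ 7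
        + 73 * z ^ 8 + 113 * z ^ 9 + 124 * z ^ 10 + 76 * z ^ 11, by
        push_cast
        linear_combination (-(-68 + 65 * z + 48 * z ^ 2 + 76 * z ^ 3)) * hz⟩
      ⟨-43 - 41 * z - 20 * z ^ 2 - 37 * z ^ 3 - 32 * z ^ 4 - 12 * z ^ 5 - 18 * z ^ 6 - 27 * z ^ 7
        - 35 * z ^ 8 - 54 * z ^ 9 - 59 * z ^ 10 - 36 * z ^ 11, by
        push_cast
        linear_combination (-(32 - 31 * z - 23 * z ^ 2 - 36 * z ^ 3)) * hz⟩
      (Ideal.mem_span_pair.2 ⟨201568, 421949 + 5626 * z + 75 * z ^ 2 + z ^ 3, by push_cast; ring⟩)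
    exact ⟨P, hP, Or.inr hpr⟩
  have key : ∃ P ∈ primesOver (span {(q : ℤ)}) (𝓞 K), 306 < q ^ P.inertiaDeg ℤ := by
    apply exists_prime_lt K 13 q _ 306 9 (by norm_num)
    · interval_cases q <;> first | omega | decide | exact absurd hqp (by norm_num)
    · intro h
      exact h13 ((Nat.prime_dvd_prime_iff_eq hqp (by norm_num)).1 h)
  obtain ⟨P, hP, hlt⟩ := key
  exact ⟨P, hP, Or.inl (lt_of_le_of_lt hB hlt)⟩

end Fermat.Agent.CyclotomicPID
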