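import Mathlib
import Fermat.Agent.S51.Count

/-!
# x-only division polynomials, without division

`pq b₂ b₄ b₆ b₈ x n = (p_n, q_n)` with `x(nP) = p_n / q_n` for a point `P` of abscissa `x`.
-/

set_option autoImplicit false

namespace Fermat.Agent.DivPoly

open Polynomial WeierstrassCurve

section generic

variable {A : Type*} [CommRing A]

/-- numerator of the duplication formula, homogeneous form -/
def dupN (b₄ b₆ b₈ p q : A) : A := p ^ 4 - b₄ * p ^ 2 * q ^ 2 - 2 * b₆ * p * q ^ 3 - b₈ * q ^ 4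

/-- denominator of the duplication formula, homogeneous form -/
def dupD (b₂ b₄ b₆ p q : A) : A :=
  q * (4 * p ^ 3 + b₂ * p ^ 2 * q + 2 * b₄ * p * q ^ 2 + b₆ * q ^ 3)

/-- `x₁ - x₂`, homogeneous form -/
def hlf (p₁ q₁ p₂ q₂ : A) : A := p₁ * q₂ - p₂ * q₁

/-- numerator of `x(P+Q) + x(P-Q)`, homogeneous form -/
def sumN (b₂ b₄ b₆ p₁ q₁ p₂ q₂ : A) : A :=
  2 * (p₁ * q₂ + p₂ * q₁) * (p₁ * p₂) + b₂ * (p₁ * p₂) * (q₁ * q₂)
    + b₄ * (p₁ * q₂ + p₂ * q₁) * (q₁ * q₂) + b₆ * (q₁ * q₂) ^ 2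

/-- the pair (numerator, denominator) of `x(nP)` -/
def pq (b₂ b₄ b₆ b₈ x : A) : ℕ → A × A
  | 0 => (1, 0)
  | 1 => (x, 1)
  | (n + 2) =>
    if hn : Even n then
      have : n / 2 + 1 < n + 2 := by omega
      (dupN b₄ b₆ b₈ (pq b₂ b₄ b₆ b₈ x (n / 2 + 1)).1 (pq b₂ b₄ b₆ b₈ x (n / 2 + 1)).2,
        dupD b₂ b₄ b₆ (pq b₂ b₄ b₆ b₈ x (n / 2 + 1)).1 (pq b₂ b₄ b₆ b₈ x (n / 2 + 1)).2)
    else
      have : n / 2 + 1 < n + 2 := by omega
      have : n / 2 + 2 < n + 2 := by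
        rcases Nat.not_even_iff_odd.mp hn with ⟨k, hk⟩
        omega
      (sumN b₂ b₄ b₆ (pq b₂ b₄ b₆ b₈ x (n / 2 + 2)).1 (pq b₂ b₄ b₆ b₈ x (n / 2 + 2)).2
          (pq b₂ b₄ b₆ b₈ x (n / 2 + 1)).1 (pq b₂ b₄ b₆ b₈ x (n / 2 + 1)).2
        - x * hlf (pq b₂ b₄ b₆ b₈ x (n / 2 + 2)).1 (pq b₂ b₄ b₆ b₈ x (n / 2 + 2)).2
          (pq b₂ b₄ b₆ b₈ x (n / 2 + 1)).1 (pq b₂ b₄ b₆ b₈ x (n / 2 + 1)).2 ^ 2,
        hlf (pq b₂ b₄ b₆ b₈ x (n / 2 + 2)).1 (pq b₂ b₄ b₆ b₈ x (n / 2 + 2)).2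
          (pq b₂ b₄ b₆ b₈ x (n / 2 + 1)).1 (pq b₂ b₄ b₆ b₈ x (n / 2 + 1)).2 ^ 2)

variable (b₂ b₄ b₆ b₈ x : A)

@[simp] lemma pq_zero : pq b₂ b₄ b₆ b₈ x 0 = (1, 0) := by rw [pq]

@[simp] lemma pq_one : pq b₂ b₄ b₆ b₈ x 1 = (x, 1) := by rw [pq]

lemma pq_even (b : ℕ) : pq b₂ b₄ b₆ b₈ x (2 * b) =
    (dupN b₄ b₆ b₈ (pq b₂ b₄ b₆ b₈ x b).1 (pq b₂ b₄ b₆ b₈ x b).2,
      dupD b₂ b₄ b₆ (pq b₂ b₄ b₆ b₈ x b).1 (pq b₂ b₄ b₆ b₈ x b).2) := by
  rcases b with _ | b
  · simp [dupN, dupD]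
  · have h1 : 2 * (b + 1) = 2 * b + 2 := by ring
    have h2 : Even (2 * b) := even_two_mul b
    have h3 : 2 * b / 2 = b := by omega
    rw [h1, pq, dif_pos h2]
    simp only [h3]

lemma pq_odd (b : ℕ) : pq b₂ b₄ b₆ b₈ x (2 * b + 1) =
    (sumN b₂ b₄ b₆ (pq b₂ b₄ b₆ b₈ x (b + 1)).1 (pq b₂ b₄ b₆ b₈ x (b + 1)).2
          (pq b₂ b₄ b₆ b₈ x b).1 (pq b₂ b₄ b₆ b₈ x b).2
        - x * hlf (pq b₂ b₄ b₆ b₈ x (b + 1)).1 (pq b₂ b₄ b₆ b₈ x (b + 1)).2
          (pq b₂ b₄ b₆ b₈ x b).1 (pq b₂ b₄ b₆ b₈ x b).2 ^ 2,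
        hlf (pq b₂ b₄ b₆ b₈ x (b + 1)).1 (pq b₂ b₄ b₆ b₈ x (b + 1)).2
          (pq b₂ b₄ b₆ b₈ x b).1 (pq b₂ b₄ b₆ b₈ x b).2 ^ 2) := by
  rcases b with _ | b
  · simp [sumN, hlf]; ring
  · have h1 : 2 * (b + 1) + 1 = (2 * b + 1) + 2 := by ring
    have h2 : ¬ Even (2 * b + 1) := by simp
    have h3 : (2 * b + 1) / 2 = b := by omega
    rw [h1, pq, dif_neg h2]
    simp only [h3]

/-- induction principle adapted to `pq` -/
lemma pq_induction {motive : ℕ → Prop} (h0 : motive 0) (h1 : motive 1)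
    (heven : ∀ b, 1 ≤ b → motive b → motive (2 * b))
    (hodd : ∀ b, 1 ≤ b → motive b → motive (b + 1) → motive (2 * b + 1)) (n : ℕ) : motive n := by
  induction n using Nat.strong_induction_on with
  | _ n ih =>
    rcases n with _ | _ | n
    · exact h0
    · exact h1
    · rcases Nat.even_or_odd' n with ⟨k, hk | hk⟩
      · have : n + 1 + 1 = 2 * (k + 1) := by omega
        rw [this]
        exact heven _ (by omega) (ih _ (by omega))
      · have : n + 1 + 1 = 2 * (k + 1) + 1 := by omega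
        rw [this]
        exact hodd _ (by omega) (ih _ (by omega)) (ih _ (by omega))

variable {B : Type*} [CommRing B] (f : A →+* B)

lemma map_pq (n : ℕ) : (f (pq b₂ b₄ b₆ b₈ x n).1, f (pq b₂ b₄ b₆ b₈ x n).2) =
    pq (f b₂) (f b₄) (f b₆) (f b₈) (f x) n := by
  induction n using pq_induction with
  | h0 => simp
  | h1 => simp
  | heven b _ ih =>
    rw [pq_even, pq_even, ← ih]
    simp [dupN, dupD, map_ofNat]
  | hodd b _ ih ih' =>
    rw [pq_odd, pq_odd, ← ih, ← ih']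
    simp [sumN, hlf, map_ofNat]

lemma map_pq_fst (n : ℕ) : f (pq b₂ b₄ b₆ b₈ x n).1 = (pq (f b₂) (f b₄) (f b₆) (f b₈) (f x) n).1 := by
  rw [← map_pq]

lemma map_pq_snd (n : ℕ) : f (pq b₂ b₄ b₆ b₈ x n).2 = (pq (f b₂) (f b₄) (f b₆) (f b₈) (f x) n).2 := by
  rw [← map_pq]

end generic

section pointwise

open WeierstrassCurve.Affine Fermat.Agent.S51

variable {F : Type*} [Field F] [DecidableEq F] (W : WeierstrassCurve.Affine F)

/-- `r = (p, q)` are homogeneous coordinates of the abscissa of the point -/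
def Rep : W.Point → F × F → Prop
  | .zero, r => r.2 = 0 ∧ r.1 ≠ 0
  | .some x' _ _, r => r.2 ≠ 0 ∧ r.1 = x' * r.2

omit [DecidableEq F] in
lemma rep_zero (r : F × F) : Rep W 0 r ↔ r.2 = 0 ∧ r.1 ≠ 0 := Iff.rfl

omit [DecidableEq F] in
lemma rep_some {x y : F} (h : W.Nonsingular x y) (r : F × F) :
    Rep W (.some x y h) r ↔ r.2 ≠ 0 ∧ r.1 = x * r.2 := Iff.rfl

omit [DecidableEq F] in
lemma gX_ne_zero {x y : F} (h : W.Nonsingular x y) (hf : fX W x = 0) : gX W x ≠ 0 := by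
  intro hg
  have h3 : p3 W x = 0 := by
    have := gX_sub W x
    rw [hg, hf] at this
    linear_combination this
  exact fX_ne_zero_of_p3 W h h3 hf

lemma rep_dup {Q : W.Point} {r : F × F} (hr : Rep W Q r) :
    Rep W (Q + Q) (dupN W.b₄ W.b₆ W.b₈ r.1 r.2, dupD W.b₂ W.b₄ W.b₆ r.1 r.2) := by
  obtain ⟨p, q⟩ := r
  rcases Q with _ | ⟨x, y, h⟩
  · obtain ⟨hq, hp⟩ := hr
    simp only at hq hp
    subst hq
    change Rep W (0 + 0) _
    rw [add_zero, rep_zero]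
    refine ⟨by simp [dupD], ?_⟩
    simpa [dupN] using hp
  · obtain ⟨hq, hp⟩ := hr
    simp only at hq hp
    subst hp
    have hN : dupN W.b₄ W.b₆ W.b₈ (x * q) q = q ^ 4 * gX W x := by
      simp only [dupN, gX]; ring
    have hD : dupD W.b₂ W.b₄ W.b₆ (x * q) q = q ^ 4 * fX W x := by
      simp only [dupD, fX]; ring
    rw [hN, hD]
    by_cases hf : fX W x = 0
    · rw [dbl_of_fX_eq_zero W h hf, rep_zero]
      exact ⟨by simp [hf], mul_ne_zero (pow_ne_zero _ hq) (gX_ne_zero W h hf)⟩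
    · obtain ⟨y', h', he⟩ := dbl_of_fX_ne_zero W h hf
      rw [he, rep_some]
      refine ⟨mul_ne_zero (pow_ne_zero _ hq) hf, ?_⟩
      simp only
      field_simp

lemma add_sub_X {x₁ y₁ x₂ y₂ : F} (h₁ : W.Nonsingular x₁ y₁) (h₂ : W.Nonsingular x₂ y₂)
    (hx : x₁ ≠ x₂) :
    ∃ (X Y yX yY : F) (hX : W.Nonsingular X yX) (hY : W.Nonsingular Y yY),
      Point.some x₁ y₁ h₁ + Point.some x₂ y₂ h₂ = Point.some X yX hX ∧
      Point.some x₁ y₁ h₁ - Point.some x₂ y₂ h₂ = Point.some Y yY hY ∧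
      (X + Y) * (x₁ - x₂) ^ 2 =
        2 * (x₁ + x₂) * (x₁ * x₂) + W.b₂ * (x₁ * x₂) + W.b₄ * (x₁ + x₂) + W.b₆ := by
  have hd : x₁ - x₂ ≠ 0 := sub_ne_zero.mpr hx
  have hs := Point.add_of_X_ne (h₁ := h₁) (h₂ := (Affine.nonsingular_neg ..).mpr h₂) hx
  rw [← Point.neg_some h₂, ← sub_eq_add_neg] at hs
  refine ⟨_, _, _, _, _, _, Point.add_of_X_ne hx, hs, ?_⟩
  · rw [Affine.slope_of_X_ne hx, Affine.slope_of_X_ne hx]
    have e₁ := (Affine.equation_iff ..).mp h₁.1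
    have e₂ := (Affine.equation_iff ..).mp h₂.1
    simp only [Affine.addX, Affine.negY, WeierstrassCurve.b₂, WeierstrassCurve.b₄,
      WeierstrassCurve.b₆]
    field_simp
    linear_combination 2 * e₁ + 2 * e₂

lemma rep_add {Q₁ Q₂ : W.Point} {r₁ r₂ : F × F} (hr₁ : Rep W Q₁ r₁) (hr₂ : Rep W Q₂ r₂)
    {x y : F} (h : W.Nonsingular x y) (hd : Q₁ - Q₂ = .some x y h) :
    Rep W (Q₁ + Q₂) (sumN W.b₂ W.b₄ W.b₆ r₁.1 r₁.2 r₂.1 r₂.2 - x * hlf r₁.1 r₁.2 r₂.1 r₂.2 ^ 2,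
      hlf r₁.1 r₁.2 r₂.1 r₂.2 ^ 2) := by
  obtain ⟨p₁, q₁⟩ := r₁
  obtain ⟨p₂, q₂⟩ := r₂
  rcases Q₂ with _ | ⟨x₂, y₂, h₂⟩
  · -- `Q₂ = 0`
    change Q₁ - 0 = _ at hd
    rw [sub_zero] at hd
    subst hd
    change Rep W (_ + 0) _
    rw [add_zero, rep_some]
    obtain ⟨hq₂, hp₂⟩ := hr₂
    obtain ⟨hq₁, hp₁⟩ := hr₁
    simp only at hq₁ hp₁ hq₂ hp₂ ⊢
    subst hq₂ hp₁
    refine ⟨pow_ne_zero _ ?_, ?_⟩
    · simp only [hlf, mul_zero, zero_sub, neg_ne_zero]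
      exact mul_ne_zero hp₂ hq₁
    · simp only [sumN, hlf]; ring
  rcases Q₁ with _ | ⟨x₁, y₁, h₁⟩
  · -- `Q₁ = 0`
    change 0 - _ = _ at hd
    rw [zero_sub, Point.neg_some, Point.some.injEq] at hd
    obtain ⟨rfl, -⟩ := hd
    change Rep W (0 + _) _
    rw [zero_add, rep_some]
    obtain ⟨hq₂, hp₂⟩ := hr₂
    obtain ⟨hq₁, hp₁⟩ := hr₁
    simp only at hq₁ hp₁ hq₂ hp₂ ⊢
    subst hq₁ hp₂
    refine ⟨pow_ne_zero _ ?_, ?_⟩
    · simp only [hlf, mul_zero, sub_zero]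
      exact mul_ne_zero hp₁ hq₂
    · simp only [sumN, hlf]; ring
  obtain ⟨hq₂, hp₂⟩ := hr₂
  obtain ⟨hq₁, hp₁⟩ := hr₁
  simp only at hq₁ hp₁ hq₂ hp₂ ⊢
  subst hp₁ hp₂
  by_cases hx : x₁ = x₂
  · rcases (Point.X_eq_iff (h₁ := h₁) (h₂ := h₂)).mp hx with he | he
    · rw [he, sub_self] at hd
      exact absurd hd.symm (Point.some_ne_zero h)
    · have h0 : Point.some x₁ y₁ h₁ + Point.some x₂ y₂ h₂ = 0 := by rw [he]; simp
      rw [h0, rep_zero]
      subst hx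
      refine ⟨by simp only [hlf]; ring, ?_⟩
      have hS : sumN W.b₂ W.b₄ W.b₆ (x₁ * q₁) q₁ (x₁ * q₂) q₂
          - x * hlf (x₁ * q₁) q₁ (x₁ * q₂) q₂ ^ 2 = (q₁ * q₂) ^ 2 * fX W x₁ := by
        simp only [sumN, hlf, fX]; ring
      simp only
      rw [hS]
      refine mul_ne_zero (pow_ne_zero _ (mul_ne_zero hq₁ hq₂)) ?_
      intro hf
      have h2 := dbl_of_fX_eq_zero W h₁ hf
      have h3 : Point.some x₁ y₁ h₁ = Point.some x₁ y₂ h₂ := by
        have := h2.trans h0.symm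
        exact add_left_cancel this
      rw [h3, sub_self] at hd
      exact absurd hd.symm (Point.some_ne_zero h)
  · obtain ⟨X, Y, yX, yY, hX, hY, e₁, e₂, e₃⟩ := add_sub_X W h₁ h₂ hx
    rw [e₂, Point.some.injEq] at hd
    obtain ⟨rfl, -⟩ := hd
    rw [e₁, rep_some]
    have hH : hlf (x₁ * q₁) q₁ (x₂ * q₂) q₂ = (q₁ * q₂) * (x₁ - x₂) := by
      simp only [hlf]; ring
    refine ⟨pow_ne_zero _ ?_, ?_⟩
    · rw [hH]
      exact mul_ne_zero (mul_ne_zero hq₁ hq₂) (sub_ne_zero.mpr hx)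
    · simp only
      rw [hH]
      simp only [sumN]
      linear_combination (-(q₁ * q₂) ^ 2) * e₃

/-- **pointwise theorem**: `pq … x n` are homogeneous coordinates of `x(nP)`. -/
theorem rep_nsmul {x y : F} (h : W.Nonsingular x y) (n : ℕ) :
    Rep W (n • Point.some x y h) (pq W.b₂ W.b₄ W.b₆ W.b₈ x n) := by
  induction n using pq_induction with
  | h0 => rw [zero_smul, pq_zero, rep_zero]; simp
  | h1 => rw [one_smul, pq_one, rep_some]; simp
  | heven b _ ih =>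
    rw [pq_even, two_mul, add_smul]
    exact rep_dup W ih
  | hodd b _ ih ih' =>
    have e : (2 * b + 1) • Point.some x y h
        = (b + 1) • Point.some x y h + b • Point.some x y h := by
      rw [← add_smul]; congr 1; ring
    rw [pq_odd, e]
    refine rep_add W ih' ih h ?_
    rw [add_smul, one_smul]; abel

end pointwise

section leading

variable {R : Type*} [CommRing R]

/-- `p` has degree at most `d` and its coefficient of degree `d` is `c` -/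
structure LD (p : R[X]) (d : ℕ) (c : R) : Prop where
  le : p.natDegree ≤ d
  coeff : p.coeff d = c

namespace LD

variable {p q : R[X]} {d e : ℕ} {c c' : R}

lemma mul (hp : LD p d c) (hq : LD q e c') : LD (p * q) (d + e) (c * c') :=
  ⟨natDegree_mul_le_of_le hp.le hq.le, by
    rw [coeff_mul_add_eq_of_natDegree_le hp.le hq.le, hp.coeff, hq.coeff]⟩

lemma pow (hp : LD p d c) (k : ℕ) : LD (p ^ k) (k * d) (c ^ k) :=
  ⟨natDegree_pow_le_of_le k hp.le, by rw [coeff_pow_of_natDegree_le hp.le, hp.coeff]⟩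

lemma add (hp : LD p d c) (hq : LD q d c') : LD (p + q) d (c + c') :=
  ⟨natDegree_add_le_of_degree_le hp.le hq.le, by rw [coeff_add, hp.coeff, hq.coeff]⟩

lemma sub (hp : LD p d c) (hq : LD q d c') : LD (p - q) d (c - c') :=
  ⟨(natDegree_sub_le_of_le hp.le hq.le).trans (by simp), by rw [coeff_sub, hp.coeff, hq.coeff]⟩

lemma lower (hp : LD p d c) (h : d < e) : LD p e 0 :=
  ⟨hp.le.trans h.le, coeff_eq_zero_of_natDegree_lt (hp.le.trans_lt h)⟩

lemma const (a : R) : LD (C a) 0 a := ⟨by simp, by simp⟩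

lemma two : LD (2 : R[X]) 0 2 := by
  have := const (2 : R)
  rwa [map_ofNat] at this

lemma four : LD (4 : R[X]) 0 4 := by
  have := const (4 : R)
  rwa [map_ofNat] at this

lemma X : LD (X : R[X]) 1 1 := ⟨natDegree_X_le, coeff_X_one⟩

lemma congr (hp : LD p d c) (hd : d = e) (hc : c = c') : LD p e c' := by
  subst hd hc; exact hp

end LD

variable (b₂ b₄ b₆ b₈ : R) {p q p₁ q₁ p₂ q₂ : R[X]} {m m₁ m₂ : ℕ} {c c₁ c₂ : R}

lemma LD_dupN (hp : LD p (m + 1) 1) (hq : LD q m c) :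
    LD (dupN (C b₄) (C b₆) (C b₈) p q) (4 * (m + 1)) 1 := by
  unfold dupN
  have t1 := hp.pow 4
  have t2 := (((LD.const b₄).mul (hp.pow 2)).mul (hq.pow 2)).lower (e := 4 * (m + 1)) (by omega)
  have t3 := (((LD.two.mul (LD.const b₆)).mul hp).mul (hq.pow 3)).lower (e := 4 * (m + 1))
    (by omega)
  have t4 := ((LD.const b₈).mul (hq.pow 4)).lower (e := 4 * (m + 1)) (by omega)
  exact (((t1.sub t2).sub t3).sub t4).congr rfl (by simp)

lemma LD_dupD (hp : LD p (m + 1) 1) (hq : LD q m c) :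
    LD (dupD (C b₂) (C b₄) (C b₆) p q) (4 * m + 3) (4 * c) := by
  unfold dupD
  have t1 := LD.four.mul (hp.pow 3)
  have t2 := (((LD.const b₂).mul (hp.pow 2)).mul hq).lower (e := 0 + 3 * (m + 1)) (by omega)
  have t3 := (((LD.two.mul (LD.const b₄)).mul hp).mul (hq.pow 2)).lower (e := 0 + 3 * (m + 1))
    (by omega)
  have t4 := ((LD.const b₆).mul (hq.pow 3)).lower (e := 0 + 3 * (m + 1)) (by omega)
  exact (hq.mul (((t1.add t2).add t3).add t4)).congr (by omega) (by simp; ring)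

lemma LD_hlf (hp₁ : LD p₁ (m₁ + 1) 1) (hq₁ : LD q₁ m₁ c₁) (hp₂ : LD p₂ (m₂ + 1) 1)
    (hq₂ : LD q₂ m₂ c₂) : LD (hlf p₁ q₁ p₂ q₂) (m₁ + m₂ + 1) (c₂ - c₁) := by
  unfold hlf
  exact (((hp₁.mul hq₂).congr (e := m₁ + m₂ + 1) (by omega) rfl).sub
    ((hp₂.mul hq₁).congr (e := m₁ + m₂ + 1) (by omega) rfl)).congr rfl (by simp)

lemma LD_sumN (hp₁ : LD p₁ (m₁ + 1) 1) (hq₁ : LD q₁ m₁ c₁) (hp₂ : LD p₂ (m₂ + 1) 1)
    (hq₂ : LD q₂ m₂ c₂) :
    LD (sumN (C b₂) (C b₄) (C b₆) p₁ q₁ p₂ q₂) (2 * (m₁ + m₂ + 1) + 1) (2 * (c₂ + c₁)) := by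
  unfold sumN
  have t : LD (p₁ * q₂ + p₂ * q₁) (m₁ + m₂ + 1) (c₂ + c₁) :=
    (((hp₁.mul hq₂).congr (e := m₁ + m₂ + 1) (by omega) rfl).add
    ((hp₂.mul hq₁).congr (e := m₁ + m₂ + 1) (by omega) rfl)).congr rfl (by simp)
  have s := hp₁.mul hp₂
  have u := hq₁.mul hq₂
  have t1 := ((LD.two.mul t).mul s).congr (e := 2 * (m₁ + m₂ + 1) + 1) (by omega) rfl
  have t2 := (((LD.const b₂).mul s).mul u).lower (e := 2 * (m₁ + m₂ + 1) + 1) (by omega)
  have t3 := (((LD.const b₄).mul t).mul u).lower (e := 2 * (m₁ + m₂ + 1) + 1) (by omega)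
  have t4 := ((LD.const b₆).mul (u.pow 2)).lower (e := 2 * (m₁ + m₂ + 1) + 1) (by omega)
  exact (((t1.add t2).add t3).add t4).congr rfl (by simp)

end leading

section poly

variable {R : Type*} [CommRing R] (W : WeierstrassCurve R)

/-- numerator of `x(nP)` as a polynomial in `x(P)` (this is `Φ_n`) -/
noncomputable def num (n : ℕ) : R[X] := (pq (C W.b₂) (C W.b₄) (C W.b₆) (C W.b₈) X n).1

/-- denominator of `x(nP)` as a polynomial in `x(P)` (this is `Ψ_n ^ 2`) -/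
noncomputable def den (n : ℕ) : R[X] := (pq (C W.b₂) (C W.b₄) (C W.b₆) (C W.b₈) X n).2

/-- `± Ψ_{2b+1}` -/
noncomputable def half (b : ℕ) : R[X] := num W (b + 1) * den W b - num W b * den W (b + 1)

@[simp] lemma num_zero : num W 0 = 1 := by simp [num]
@[simp] lemma den_zero : den W 0 = 0 := by simp [den]
@[simp] lemma num_one : num W 1 = X := by simp [num]
@[simp] lemma den_one : den W 1 = 1 := by simp [den]

lemma num_even (b : ℕ) :
    num W (2 * b) = dupN (C W.b₄) (C W.b₆) (C W.b₈) (num W b) (den W b) := by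
  rw [num, pq_even]; rfl

lemma den_even (b : ℕ) :
    den W (2 * b) = dupD (C W.b₂) (C W.b₄) (C W.b₆) (num W b) (den W b) := by
  rw [den, pq_even]; rfl

lemma half_eq (b : ℕ) : half W b = hlf (num W (b + 1)) (den W (b + 1)) (num W b) (den W b) := rfl

lemma num_odd (b : ℕ) : num W (2 * b + 1) =
    sumN (C W.b₂) (C W.b₄) (C W.b₆) (num W (b + 1)) (den W (b + 1)) (num W b) (den W b)
      - X * half W b ^ 2 := by
  rw [num, pq_odd]; rfl

lemma den_odd (b : ℕ) : den W (2 * b + 1) = half W b ^ 2 := by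
  rw [den, pq_odd]; rfl

lemma eval_num (x : R) (n : ℕ) : (num W n).eval x = (pq W.b₂ W.b₄ W.b₆ W.b₈ x n).1 := by
  have := map_pq_fst (C W.b₂) (C W.b₄) (C W.b₆) (C W.b₈) X (evalRingHom x) n
  simpa [num] using this

lemma eval_den (x : R) (n : ℕ) : (den W n).eval x = (pq W.b₂ W.b₄ W.b₆ W.b₈ x n).2 := by
  have := map_pq_snd (C W.b₂) (C W.b₄) (C W.b₆) (C W.b₈) X (evalRingHom x) n
  simpa [den] using this

variable {S : Type*} [CommRing S] (f : R →+* S)

lemma map_num (n : ℕ) : (num W n).map f = num (W.map f) n := by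
  have := map_pq_fst (C W.b₂) (C W.b₄) (C W.b₆) (C W.b₈) X (mapRingHom f) n
  simpa [num] using this

lemma map_den (n : ℕ) : (den W n).map f = den (W.map f) n := by
  have := map_pq_snd (C W.b₂) (C W.b₄) (C W.b₆) (C W.b₈) X (mapRingHom f) n
  simpa [den] using this

lemma map_half (b : ℕ) : (half W b).map f = half (W.map f) b := by
  simp [half, map_num, map_den]

/-- degrees and leading coefficients -/
theorem LD_num_den (n : ℕ) : LD (num W n) (n ^ 2) 1 ∧ LD (den W n) (n ^ 2 - 1) ((n : R) ^ 2) := by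
  induction n using pq_induction with
  | h0 => simpa using And.intro (LD.const (1 : R)) (LD.const (0 : R))
  | h1 => simpa using And.intro (LD.X (R := R)) (LD.const (1 : R))
  | heven b hb ih =>
    obtain ⟨m, hm⟩ : ∃ m, b ^ 2 = m + 1 := ⟨b ^ 2 - 1, by have := Nat.pow_pos (n := 2) hb; omega⟩
    rw [hm] at ih
    rw [num_even, den_even]
    have e : (2 * b) ^ 2 = 4 * (m + 1) := by rw [mul_pow, hm]; norm_num
    rw [e]
    exact ⟨LD_dupN _ _ _ ih.1 ih.2, (LD_dupD _ _ _ ih.1 ih.2).congr (by omega) (by push_cast; ring)⟩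
  | hodd b hb ih ih' =>
    obtain ⟨m, hm⟩ : ∃ m, b ^ 2 = m + 1 := ⟨b ^ 2 - 1, by have := Nat.pow_pos (n := 2) hb; omega⟩
    have hm' : (b + 1) ^ 2 = (m + 2 * b + 1) + 1 := by ring_nf; ring_nf at hm; omega
    rw [hm] at ih
    rw [hm'] at ih'
    rw [num_odd, den_odd, half_eq]
    have e : (2 * b + 1) ^ 2 = 2 * ((m + 2 * b + 1) + m + 1) + 1 := by
      ring_nf; ring_nf at hm; omega
    rw [e]
    have hH := LD_hlf ih'.1 ih'.2 ih.1 ih.2
    have hS := LD_sumN W.b₂ W.b₄ W.b₆ ih'.1 ih'.2 ih.1 ih.2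
    refine ⟨(hS.sub ((LD.X.mul (hH.pow 2)).congr (by omega) rfl)).congr rfl ?_,
      (hH.pow 2).congr (by omega) ?_⟩
    · push_cast; ring
    · push_cast; ring

lemma natDegree_num_le (n : ℕ) : (num W n).natDegree ≤ n ^ 2 := (LD_num_den W n).1.le

lemma coeff_num (n : ℕ) : (num W n).coeff (n ^ 2) = 1 := (LD_num_den W n).1.coeff

lemma natDegree_den_le (n : ℕ) : (den W n).natDegree ≤ n ^ 2 - 1 := (LD_num_den W n).2.le

lemma coeff_den (n : ℕ) : (den W n).coeff (n ^ 2 - 1) = (n : R) ^ 2 := (LD_num_den W n).2.coeff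

lemma monic_num (n : ℕ) : (num W n).Monic :=
  monic_of_natDegree_le_of_coeff_eq_one _ (natDegree_num_le W n) (coeff_num W n)

lemma natDegree_num [Nontrivial R] (n : ℕ) : (num W n).natDegree = n ^ 2 :=
  natDegree_eq_of_le_of_coeff_ne_zero (natDegree_num_le W n) (by rw [coeff_num]; exact one_ne_zero)

theorem LD_half (b : ℕ) : LD (half W b) (2 * b ^ 2 + 2 * b) (-(2 * (b : R) + 1)) := by
  rcases Nat.eq_zero_or_pos b with rfl | hb
  · have := LD.const (-1 : R)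
    simpa [half] using this
  · obtain ⟨m, hm⟩ : ∃ m, b ^ 2 = m + 1 := ⟨b ^ 2 - 1, by have := Nat.pow_pos (n := 2) hb; omega⟩
    have hm' : (b + 1) ^ 2 = (m + 2 * b + 1) + 1 := by ring_nf; ring_nf at hm; omega
    have ih := LD_num_den W b
    have ih' := LD_num_den W (b + 1)
    rw [hm] at ih
    rw [hm'] at ih'
    rw [half_eq]
    exact (LD_hlf ih'.1 ih'.2 ih.1 ih.2).congr (by omega) (by push_cast; ring)

lemma natDegree_half_le (b : ℕ) : (half W b).natDegree ≤ 2 * b ^ 2 + 2 * b := (LD_half W b).le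

lemma coeff_half (b : ℕ) : (half W b).coeff (2 * b ^ 2 + 2 * b) = -(2 * (b : R) + 1) :=
  (LD_half W b).coeff

lemma natDegree_half {b : ℕ} (hb : (2 * (b : R) + 1) ≠ 0) :
    (half W b).natDegree = 2 * b ^ 2 + 2 * b :=
  natDegree_eq_of_le_of_coeff_ne_zero (natDegree_half_le W b)
    (by rw [coeff_half]; exact neg_ne_zero.mpr hb)

lemma leadingCoeff_half {b : ℕ} (hb : (2 * (b : R) + 1) ≠ 0) :
    (half W b).leadingCoeff = -(2 * (b : R) + 1) := by
  rw [leadingCoeff, natDegree_half W hb, coeff_half]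

lemma half_ne_zero {b : ℕ} (hb : (2 * (b : R) + 1) ≠ 0) : half W b ≠ 0 := by
  intro h
  have := coeff_half W b
  rw [h, coeff_zero] at this
  exact hb (by linear_combination this)

end poly

section field

open WeierstrassCurve.Affine Fermat.Agent.S51

variable {F : Type*} [Field F] [DecidableEq F] (W : WeierstrassCurve.Affine F)

theorem nsmul_eq_zero_iff {x y : F} (h : W.Nonsingular x y) (n : ℕ) :
    n • Point.some x y h = 0 ↔ (den W n).eval x = 0 := by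
  have hr := rep_nsmul W h n
  rw [eval_den]
  constructor
  · intro h0
    rw [h0] at hr
    exact hr.1
  · intro h0
    rcases hP : n • Point.some x y h with _ | ⟨x', y', h'⟩
    · rfl
    · rw [hP] at hr
      exact absurd h0 hr.1

theorem nsmul_eq_some {x y : F} (h : W.Nonsingular x y) (n : ℕ) {x' y' : F}
    {h' : W.Nonsingular x' y'} (e : n • Point.some x y h = Point.some x' y' h') :
    (den W n).eval x ≠ 0 ∧ (num W n).eval x = x' * (den W n).eval x := by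
  have hr := rep_nsmul W h n
  rw [e] at hr
  rw [eval_den, eval_num]
  exact hr

theorem num_ne_zero_of_den_eq_zero {x y : F} (h : W.Nonsingular x y) (n : ℕ)
    (h0 : (den W n).eval x = 0) : (num W n).eval x ≠ 0 := by
  have hr := rep_nsmul W h n
  rw [(nsmul_eq_zero_iff W h n).mpr h0] at hr
  rw [eval_num]
  exact hr.2

theorem odd_nsmul_eq_zero_iff {x y : F} (h : W.Nonsingular x y) (b : ℕ) :
    (2 * b + 1) • Point.some x y h = 0 ↔ (half W b).eval x = 0 := by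
  rw [nsmul_eq_zero_iff, den_odd, eval_pow, pow_eq_zero_iff two_ne_zero]

omit [DecidableEq F] in
theorem exists_nonsingular [IsAlgClosed F] (hΔ : W.Δ ≠ 0) (x : F) : ∃ y, W.Nonsingular x y := by
  obtain ⟨y, hy⟩ := IsAlgClosed.exists_root
    (X ^ 2 + C (W.a₁ * x + W.a₃) * X - C (x ^ 3 + W.a₂ * x ^ 2 + W.a₄ * x + W.a₆) : F[X])
    (by
      have : (X ^ 2 + C (W.a₁ * x + W.a₃) * X - C (x ^ 3 + W.a₂ * x ^ 2 + W.a₄ * x + W.a₆)
        : F[X]).degree = 2 := by compute_degree!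
      rw [this]; norm_num)
  refine ⟨y, ?_⟩
  rw [← Affine.equation_iff_nonsingular_of_Δ_ne_zero hΔ, Affine.equation_iff]
  simp only [IsRoot, eval_sub, eval_add, eval_pow, eval_X, eval_mul, eval_C] at hy
  linear_combination hy

/-- existence of a point of odd order `n`, if `n` is invertible -/
theorem exists_torsion [IsAlgClosed F] (hΔ : W.Δ ≠ 0) {b : ℕ} (hb : 1 ≤ b)
    (hn : (2 * (b : F) + 1) ≠ 0) : ∃ P : W.Point, P ≠ 0 ∧ (2 * b + 1) • P = 0 := by
  obtain ⟨x, hx⟩ := IsAlgClosed.exists_root (half W b) (by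
    rw [degree_eq_natDegree (half_ne_zero W hn), natDegree_half W hn]
    have : 0 < 2 * b ^ 2 + 2 * b := by positivity
    exact_mod_cast this.ne')
  obtain ⟨y, hy⟩ := exists_nonsingular W hΔ x
  exact ⟨Point.some x y hy, Point.some_ne_zero hy, (odd_nsmul_eq_zero_iff W hy b).mpr hx⟩

theorem torsion_finite_card_le {b : ℕ} (hn : (2 * (b : F) + 1) ≠ 0) :
    {P : W.Point | (2 * b + 1) • P = 0}.Finite ∧
      {P : W.Point | (2 * b + 1) • P = 0}.ncard ≤ 2 * (half W b).roots.toFinset.card + 1 :=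
  finite_card_le W (half W b).roots.toFinset _ (by
    intro x y h hP
    rw [Multiset.mem_toFinset, mem_roots (half_ne_zero W hn), IsRoot]
    exact (odd_nsmul_eq_zero_iff W h b).mp hP)

lemma card_roots_half_le (b : ℕ) : (half W b).roots.toFinset.card ≤ 2 * b ^ 2 + 2 * b :=
  (Multiset.toFinset_card_le _).trans ((card_roots' _).trans (natDegree_half_le W b))

theorem torsion_ncard_le {b : ℕ} (hn : (2 * (b : F) + 1) ≠ 0) :
    {P : W.Point | (2 * b + 1) • P = 0}.ncard ≤ (2 * b + 1) ^ 2 := by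
  have h1 := (torsion_finite_card_le W hn).2
  have h2 := card_roots_half_le W b
  calc _ ≤ 2 * (half W b).roots.toFinset.card + 1 := h1
    _ ≤ 2 * (2 * b ^ 2 + 2 * b) + 1 := by omega
    _ = (2 * b + 1) ^ 2 := by ring

/-- if there are `n ^ 2` points of `n`-torsion then `half` splits with simple roots -/
theorem half_eq_prod {b : ℕ} (hn : (2 * (b : F) + 1) ≠ 0)
    (hcard : {P : W.Point | (2 * b + 1) • P = 0}.ncard = (2 * b + 1) ^ 2) :
    (half W b).roots.toFinset.card = 2 * b ^ 2 + 2 * b ∧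
      half W b = C (-(2 * (b : F) + 1)) * ∏ x ∈ (half W b).roots.toFinset, (X - C x) := by
  have h1 := (torsion_finite_card_le W hn).2
  have h2 := card_roots_half_le W b
  have h3 : (2 * b + 1) ^ 2 = 2 * (2 * b ^ 2 + 2 * b) + 1 := by ring
  have h4 : (half W b).roots.toFinset.card = 2 * b ^ 2 + 2 * b := by omega
  have h5 : (half W b).roots.toFinset.card ≤ Multiset.card (half W b).roots :=
    Multiset.toFinset_card_le _
  have h6 : Multiset.card (half W b).roots ≤ 2 * b ^ 2 + 2 * b :=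
    (card_roots' _).trans (natDegree_half_le W b)
  have h7 : Multiset.card (half W b).roots = (half W b).natDegree := by
    rw [natDegree_half W hn]; omega
  have h8 : (half W b).roots.Nodup := by
    rw [← Multiset.toFinset_card_eq_card_iff_nodup]; omega
  refine ⟨h4, ?_⟩
  have h9 := C_leadingCoeff_mul_prod_multiset_X_sub_C h7
  rw [leadingCoeff_half W hn] at h9
  rw [Finset.prod_eq_multiset_prod, Multiset.toFinset_val, Multiset.dedup_eq_self.mpr h8]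
  exact h9.symm

lemma coe_torsionBy (n : ℕ) :
    (Submodule.torsionBy ℤ W.Point (n : ℤ) : Set W.Point) = {P : W.Point | n • P = 0} := by
  ext P
  simp

theorem torsionBy_finite {n : ℕ} (hodd : Odd n) (hn : (n : F) ≠ 0) :
    Finite (Submodule.torsionBy ℤ W.Point (n : ℤ)) ∧
      Nat.card (Submodule.torsionBy ℤ W.Point (n : ℤ)) ≤ n ^ 2 := by
  obtain ⟨b, rfl⟩ := hodd
  have hn' : (2 * (b : F) + 1) ≠ 0 := by simpa using hn
  have h1 := (torsion_finite_card_le W hn').1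
  have h2 := torsion_ncard_le W hn'
  rw [← coe_torsionBy] at h1 h2
  refine ⟨h1, ?_⟩
  rw [← Nat.card_coe_set_eq] at h2
  exact h2

theorem torsionBy_nontrivial [IsAlgClosed F] (hΔ : W.Δ ≠ 0) {n : ℕ} (hodd : Odd n) (h1 : 1 < n)
    (hn : (n : F) ≠ 0) : Nontrivial (Submodule.torsionBy ℤ W.Point (n : ℤ)) := by
  obtain ⟨b, rfl⟩ := hodd
  have hn' : (2 * (b : F) + 1) ≠ 0 := by simpa using hn
  obtain ⟨P, hP, hP'⟩ := exists_torsion W hΔ (b := b) (by omega) hn'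
  have hmem : P ∈ Submodule.torsionBy ℤ W.Point ((2 * b + 1 : ℕ) : ℤ) := by
    have : P ∈ (Submodule.torsionBy ℤ W.Point ((2 * b + 1 : ℕ) : ℤ) : Set W.Point) := by
      rw [coe_torsionBy]; exact hP'
    exact this
  exact ⟨⟨⟨P, hmem⟩, 0, fun h => hP (congrArg Subtype.val h)⟩⟩

/-- version of `half_eq_prod` for `Submodule.torsionBy` -/
theorem half_eq_prod' {b : ℕ} (hn : (2 * (b : F) + 1) ≠ 0)
    (hcard : Nat.card (Submodule.torsionBy ℤ W.Point ((2 * b + 1 : ℕ) : ℤ)) = (2 * b + 1) ^ 2) :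
    (half W b).roots.toFinset.card = 2 * b ^ 2 + 2 * b ∧
      half W b = C (-(2 * (b : F) + 1)) * ∏ x ∈ (half W b).roots.toFinset, (X - C x) := by
  refine half_eq_prod W hn ?_
  rw [← coe_torsionBy, ← Nat.card_coe_set_eq]
  exact hcard

end field

end Fermat.Agent.DivPoly
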