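import Fermat.Agent.Lib.KummerLemma

set_option autoImplicit false

namespace Fermat.Agent.KummerLemma

open NumberField Polynomial

theorem fact_prime_eleven : Fact (Nat.Prime 11) := ⟨by norm_num⟩

attribute [local instance] fact_prime_eleven

theorem kummer_eleven {K : Type*} [Field K] [NumberField K]
    [IsCyclotomicExtension {11} ℚ K]
    (u : (𝓞 K)ˣ) (a : ℤ) (h : ((11 : ℕ) : 𝓞 K) ∣ (u : 𝓞 K) - a) : ∃ v : (𝓞 K)ˣ, u = v ^ 11 := by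
  have hζ := IsCyclotomicExtension.zeta_spec 11 ℚ K
  have hT : tt 11 ^ 9 = 0 := tt_pow 11
  have hP : (11 : R1 11) = 0 := by exact_mod_cast natCast_R1 11
  have h0 : (Psi hζ (zetaUnit hζ : 𝓞 K)).snd =
      ofCoeffs 11 ![1, 10, 1, 10, 1, 10, 1, 10, 1] * (Psi hζ (zetaUnit hζ : 𝓞 K)).fst := by
    rw [Psi_zetaUnit, fst_zz, snd_zz, ofCoeffs_apply]
    simp [Fin.sum_univ_succ, Algebra.smul_def, map_ofNat]
    linear_combination ((-1)) * hT + ((-1) * tt 11 + (-1) * tt 11 ^ 2 + (-1) * tt 11 ^ 3 + (-1) * tt 11 ^ 4 + (-1) * tt 11 ^ 5 + (-1) * tt 11 ^ 6 + (-1) * tt 11 ^ 7 + (-1) * tt 11 ^ 8) * hP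
  have h1 : (Psi hζ (cycUnit hζ 2 (by norm_num) : 𝓞 K)).snd =
      ofCoeffs 11 ![6, 8, 7, 2, 10, 6, 8, 7, 2] * (Psi hζ (cycUnit hζ 2 (by norm_num) : 𝓞 K)).fst := by
    rw [fst_Psi_cycUnit, snd_Psi_cycUnit, ofCoeffs_apply]
    simp [Fin.sum_univ_succ, Algebra.smul_def, Finset.sum_range_succ, map_ofNat]
    linear_combination ((-2)) * hT + ((-1) + (-2) * tt 11 + (-2) * tt 11 ^ 2 + (-1) * tt 11 ^ 3 + (-2) * tt 11 ^ 4 + (-2) * tt 11 ^ 5 + (-2) * tt 11 ^ 6 + (-2) * tt 11 ^ 7 + (-1) * tt 11 ^ 8) * hP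
  have h2 : (Psi hζ (cycUnit hζ 3 (by norm_num) : 𝓞 K)).snd =
      ofCoeffs 11 ![1, 7, 0, 5, 6, 7, 2, 3, 0] * (Psi hζ (cycUnit hζ 3 (by norm_num) : 𝓞 K)).fst := by
    rw [fst_Psi_cycUnit, snd_Psi_cycUnit, ofCoeffs_apply]
    simp [Fin.sum_univ_succ, Algebra.smul_def, Finset.sum_range_succ, map_ofNat]
    linear_combination ((-3)) * hT + ((-2) * tt 11 + (-2) * tt 11 ^ 2 + (-2) * tt 11 ^ 3 + (-3) * tt 11 ^ 4 + (-4) * tt 11 ^ 5 + (-3) * tt 11 ^ 6 + (-2) * tt 11 ^ 7 + (-1) * tt 11 ^ 8) * hP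
  have h3 : (Psi hζ (cycUnit hζ 4 (by norm_num) : 𝓞 K)).snd =
      ofCoeffs 11 ![7, 8, 1, 8, 7, 6, 4, 0, 0] * (Psi hζ (cycUnit hζ 4 (by norm_num) : 𝓞 K)).fst := by
    rw [fst_Psi_cycUnit, snd_Psi_cycUnit, ofCoeffs_apply]
    simp [Fin.sum_univ_succ, Algebra.smul_def, Finset.sum_range_succ, map_ofNat]
    linear_combination ((-4)) * hT + ((-2) + (-6) * tt 11 + (-7) * tt 11 ^ 2 + (-7) * tt 11 ^ 3 + (-8) * tt 11 ^ 4 + (-9) * tt 11 ^ 5 + (-8) * tt 11 ^ 6 + (-5) * tt 11 ^ 7 + (-2) * tt 11 ^ 8) * hP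
  have h4 : (Psi hζ (cycUnit hζ 5 (by norm_num) : 𝓞 K)).snd =
      ofCoeffs 11 ![2, 0, 10, 3, 0, 6, 5, 6, 5] * (Psi hζ (cycUnit hζ 5 (by norm_num) : 𝓞 K)).fst := by
    rw [fst_Psi_cycUnit, snd_Psi_cycUnit, ofCoeffs_apply]
    simp [Fin.sum_univ_succ, Algebra.smul_def, Finset.sum_range_succ, map_ofNat]
    linear_combination ((-141) + (-85) * tt 11 + (-31) * tt 11 ^ 2 + (-5) * tt 11 ^ 3) * hT + ((-5) * tt 11 ^ 2 + (-11) * tt 11 ^ 3 + (-12) * tt 11 ^ 4 + (-10) * tt 11 ^ 5 + (-10) * tt 11 ^ 6 + (-13) * tt 11 ^ 7 + (-15) * tt 11 ^ 8) * hP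
  refine kummer_of_certificate (p := 11) hζ (by norm_num) (s := 5) (by norm_num)
    ![zetaUnit hζ, cycUnit hζ 2 (by norm_num), cycUnit hζ 3 (by norm_num), cycUnit hζ 4 (by norm_num), cycUnit hζ 5 (by norm_num)]
    !![1, 10, 1, 10, 1, 10, 1, 10, 1; 6, 8, 7, 2, 10, 6, 8, 7, 2; 1, 7, 0, 5, 6, 7, 2, 3, 0; 7, 8, 1, 8, 7, 6, 4, 0, 0; 2, 0, 10, 3, 0, 6, 5, 6, 5]
    !![9, 6, 7, 0, 2; 1, 8, 7, 4, 2; 0, 0, 0, 0, 0; 9, 0, 1, 3, 1; 0, 0, 0, 0, 0; 0, 8, 5, 0, 1; 0, 0, 0, 0, 0; 9, 1, 5, 4, 9; 0, 0, 0, 0, 0]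
    (by decide +kernel) ?_ u a h
  intro i
  fin_cases i
  · exact h0
  · exact h1
  · exact h2
  · exact h3
  · exact h4

end Fermat.Agent.KummerLemma
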