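import Mathlib

set_option autoImplicit false

namespace Fermat.Agent.KummerLemma

open NumberField Polynomial

section Abstract

variable {E : Type*} [CommGroup E] {p : ℕ} [Fact p.Prime] {W : Type*} [AddCommGroup W]
  [Module (ZMod p) W]

theorem exists_pow_eq_of_map_eq_zero {ι κ : Type*} [Fintype ι] [Fintype κ]
    (hcard : Fintype.card ι ≤ Fintype.card κ) (φ : Additive E →+ W)
    (g : ι → E) (hg : ∀ u : E, ∃ e : ι → ℤ, u = ∏ i, g i ^ e i)
    (w : κ → E) (hw : LinearIndependent (ZMod p) (fun i => φ (Additive.ofMul (w i))))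
    (u : E) (hu : φ (Additive.ofMul u) = 0) : ∃ v : E, u = v ^ p := by
  classical
  set b : ι → W := fun i => φ (Additive.ofMul (g i)) with hb
  have hφ : ∀ e : ι → ℤ, φ (Additive.ofMul (∏ i, g i ^ e i)) = ∑ i, ((e i : ℤ) : ZMod p) • b i := by
    intro e
    rw [ofMul_prod, map_sum]
    refine Finset.sum_congr rfl fun i _ => ?_
    rw [ofMul_zpow, map_zsmul, Int.cast_smul_eq_zsmul]
  have hmem : ∀ x : E, φ (Additive.ofMul x) ∈ Submodule.span (ZMod p) (Set.range b) := by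
    intro x
    obtain ⟨e, rfl⟩ := hg x
    rw [hφ]
    exact Submodule.sum_mem _ fun i _ => Submodule.smul_mem _ _ (Submodule.subset_span ⟨i, rfl⟩)
  have hli : LinearIndependent (ZMod p) b := by
    rw [linearIndependent_iff_card_eq_finrank_span]
    refine le_antisymm (hcard.trans ?_) (finrank_range_le_card b)
    let w' : κ → Submodule.span (ZMod p) (Set.range b) := fun i => ⟨_, hmem (w i)⟩
    have hw' : LinearIndependent (ZMod p) w' :=
      LinearIndependent.of_comp (Submodule.span (ZMod p) (Set.range b)).subtype hw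
    have : Module.Finite (ZMod p) (Submodule.span (ZMod p) (Set.range b)) :=
      Module.Finite.span_of_finite _ (Set.finite_range b)
    exact hw'.fintype_card_le_finrank
  obtain ⟨e, rfl⟩ := hg u
  rw [hφ] at hu
  have h0 := Fintype.linearIndependent_iff.1 hli _ hu
  have hdvd : ∀ i, (p : ℤ) ∣ e i := fun i => (ZMod.intCast_zmod_eq_zero_iff_dvd _ _).1 (h0 i)
  choose f hf using hdvd
  refine ⟨∏ i, g i ^ f i, ?_⟩
  rw [← Finset.prod_pow]
  refine Finset.prod_congr rfl fun i _ => ?_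
  rw [hf i, mul_comm, zpow_mul, zpow_natCast]

theorem linearIndependent_of_mul_eq_one {F : Type*} [Field F] {m n : Type*} [Fintype m]
    [Fintype n] [DecidableEq m] (M : Matrix m n F) (R : Matrix n m F) (h : M * R = 1) :
    LinearIndependent F (fun i => M i) := by
  rw [Fintype.linearIndependent_iff]
  intro c hc i
  have h1 : Matrix.vecMul c M = 0 := by
    rw [Matrix.vecMul_eq_sum]; exact hc
  have h2 : Matrix.vecMul c (M * R) = 0 := by
    rw [← Matrix.vecMul_vecMul, h1, Matrix.zero_vecMul]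
  rw [h, Matrix.vecMul_one] at h2
  exact congrFun h2 i

end Abstract

section DLog

variable (R : Type*) [CommRing R]

/-- logarithmic derivative on the units of the dual numbers -/
def dlog : Additive (TrivSqZeroExt R R)ˣ →+ R where
  toFun b := (b.toMul : TrivSqZeroExt R R).snd *
    ((b.toMul⁻¹ : (TrivSqZeroExt R R)ˣ) : TrivSqZeroExt R R).fst
  map_zero' := by simp
  map_add' b c := by
    have hb : (b.toMul : TrivSqZeroExt R R).fst *
        ((b.toMul⁻¹ : (TrivSqZeroExt R R)ˣ) : TrivSqZeroExt R R).fst = 1 := by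
      rw [← TrivSqZeroExt.fst_mul, Units.mul_inv, TrivSqZeroExt.fst_one]
    have hc : (c.toMul : TrivSqZeroExt R R).fst *
        ((c.toMul⁻¹ : (TrivSqZeroExt R R)ˣ) : TrivSqZeroExt R R).fst = 1 := by
      rw [← TrivSqZeroExt.fst_mul, Units.mul_inv, TrivSqZeroExt.fst_one]
    simp only [toMul_add, mul_inv_rev, Units.val_mul, TrivSqZeroExt.snd_mul, TrivSqZeroExt.fst_mul,
      smul_eq_mul, MulOpposite.smul_eq_mul_unop, MulOpposite.unop_op]
    linear_combination ((c.toMul : TrivSqZeroExt R R).snd *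
      ((c.toMul⁻¹ : (TrivSqZeroExt R R)ˣ) : TrivSqZeroExt R R).fst) * hb +
      ((b.toMul : TrivSqZeroExt R R).snd *
      ((b.toMul⁻¹ : (TrivSqZeroExt R R)ˣ) : TrivSqZeroExt R R).fst) * hc

variable {R}

theorem dlog_eq_of_snd_eq (b : (TrivSqZeroExt R R)ˣ) (w : R)
    (h : (b : TrivSqZeroExt R R).snd = w * (b : TrivSqZeroExt R R).fst) :
    dlog R (Additive.ofMul b) = w := by
  have hb : (b : TrivSqZeroExt R R).fst *
      ((b⁻¹ : (TrivSqZeroExt R R)ˣ) : TrivSqZeroExt R R).fst = 1 := by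
    rw [← TrivSqZeroExt.fst_mul, Units.mul_inv, TrivSqZeroExt.fst_one]
  show (b : TrivSqZeroExt R R).snd * ((b⁻¹ : (TrivSqZeroExt R R)ˣ) : TrivSqZeroExt R R).fst = w
  rw [h, mul_assoc, hb, mul_one]

end DLog

section Psi

variable (p : ℕ) [hp : Fact p.Prime]

/-- the truncated polynomial ring `F_p[t]/t^(p-2)` -/
abbrev R1 : Type := AdjoinRoot ((X : (ZMod p)[X]) ^ (p - 2))

noncomputable def tt : R1 p := AdjoinRoot.root _

theorem tt_pow : (tt p) ^ (p - 2) = 0 := by
  have := AdjoinRoot.eval₂_root ((X : (ZMod p)[X]) ^ (p - 2))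
  simpa [tt] using this

theorem natCast_R1 : (p : R1 p) = 0 := by
  have : (p : R1 p) = algebraMap (ZMod p) (R1 p) (p : ZMod p) := (map_natCast _ _).symm
  rw [this, ZMod.natCast_self, map_zero]

abbrev BB : Type := TrivSqZeroExt (R1 p) (R1 p)

noncomputable def zz : BB p := TrivSqZeroExt.inl (1 + tt p) + TrivSqZeroExt.inr 1

theorem fst_zz : (zz p).fst = 1 + tt p := by simp [zz]
theorem snd_zz : (zz p).snd = 1 := by simp [zz]

theorem natCast_BB : (p : BB p) = 0 := by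
  have : (p : BB p) = TrivSqZeroExt.inl (p : R1 p) := by simp
  rw [this, natCast_R1, TrivSqZeroExt.inl_zero]

theorem zz_sub_one_pow : (zz p - 1) ^ (p - 1) = 0 := by
  have h2 : 2 ≤ p := hp.out.two_le
  ext
  · rw [TrivSqZeroExt.fst_pow, TrivSqZeroExt.fst_sub, fst_zz, TrivSqZeroExt.fst_one,
      add_sub_cancel_left, TrivSqZeroExt.fst_zero, show p - 1 = (p - 2) + 1 by omega, pow_succ,
      tt_pow, zero_mul]
  · rw [TrivSqZeroExt.snd_pow, TrivSqZeroExt.fst_sub, fst_zz, TrivSqZeroExt.fst_one,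
      add_sub_cancel_left, TrivSqZeroExt.snd_zero, show (p - 1).pred = p - 2 by
        rw [Nat.pred_eq_sub_one]; omega, tt_pow, zero_smul, smul_zero]

theorem aeval_zz : aeval (zz p) (cyclotomic p ℤ) = 0 := by
  have h1 : cyclotomic p (ZMod p) = (X - 1) ^ (p - 1) := by
    have := cyclotomic_mul_prime_eq_pow_of_not_dvd (ZMod p) (p := p) (n := 1)
      (by simpa using hp.out.one_lt.ne')
    rwa [one_mul, cyclotomic_one] at this
  have h2 : aeval (zz p) (cyclotomic p (ZMod p)) = 0 := by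
    rw [h1]; simp [zz_sub_one_pow]
  rw [← map_cyclotomic_int p (ZMod p)] at h2
  rw [← h2]
  exact (aeval_map_algebraMap (ZMod p) (zz p) (cyclotomic p ℤ)).symm

variable {p} {K : Type*} [Field K] [NumberField K] [IsCyclotomicExtension {p} ℚ K]
  {ζ : K} (hζ : IsPrimitiveRoot ζ p)

omit [IsCyclotomicExtension {p} ℚ K] in
theorem minpoly_toInteger : minpoly ℤ hζ.toInteger = cyclotomic p ℤ := by
  rw [cyclotomic_eq_minpoly hζ hp.out.pos]
  exact (minpoly.algebraMap_eq (B := 𝓞 K) (B' := K) (RingOfIntegers.coe_injective) hζ.toInteger).symm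

/-- the ring hom `O_K → F_p[t]/t^(p-2)[ε]`, `ζ ↦ 1 + t + ε` -/
noncomputable def Psi : 𝓞 K →ₐ[ℤ] BB p :=
  hζ.integralPowerBasis.lift (zz p) (by
    rw [hζ.integralPowerBasis_gen, minpoly_toInteger hζ, aeval_zz])

theorem Psi_toInteger : Psi hζ hζ.toInteger = zz p := by
  have := hζ.integralPowerBasis.lift_gen (zz p) (by
    rw [hζ.integralPowerBasis_gen, minpoly_toInteger hζ, aeval_zz])
  rw [← hζ.integralPowerBasis_gen]
  exact this

/-- the logarithmic derivative hom on units of `O_K` -/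
noncomputable def phi : Additive (𝓞 K)ˣ →+ R1 p :=
  (dlog (R1 p)).comp (MonoidHom.toAdditive (Units.map (Psi hζ : 𝓞 K →* BB p)))

theorem phi_eq_of_snd_eq (u : (𝓞 K)ˣ) (w : R1 p)
    (h : (Psi hζ (u : 𝓞 K)).snd = w * (Psi hζ (u : 𝓞 K)).fst) :
    phi hζ (Additive.ofMul u) = w :=
  dlog_eq_of_snd_eq (Units.map (Psi hζ : 𝓞 K →* BB p) u) w h

theorem phi_eq_zero_of_dvd (u : (𝓞 K)ˣ) (a : ℤ) (h : (p : 𝓞 K) ∣ (u : 𝓞 K) - a) :
    phi hζ (Additive.ofMul u) = 0 := by
  apply phi_eq_of_snd_eq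
  obtain ⟨c, hc⟩ := h
  have : (u : 𝓞 K) = a + p * c := by rw [← hc]; ring
  rw [this, map_add, map_mul, map_natCast, natCast_BB, zero_mul, add_zero, map_intCast, zero_mul,
    TrivSqZeroExt.snd_intCast]

theorem exists_generators (K : Type*) [Field K] [NumberField K] :
    ∃ g : Option (Fin (Units.rank K)) → (𝓞 K)ˣ,
      ∀ u : (𝓞 K)ˣ, ∃ e : Option (Fin (Units.rank K)) → ℤ, u = ∏ i, g i ^ e i := by
  obtain ⟨τ, hτ⟩ := IsCyclic.exists_generator (α := Units.torsion K)
  refine ⟨fun i => i.elim (τ : (𝓞 K)ˣ) (Units.fundSystem K), fun u => ?_⟩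
  obtain ⟨⟨ζ', e⟩, hu, -⟩ := Units.exist_unique_eq_mul_prod K u
  obtain ⟨k, hk⟩ := Subgroup.mem_zpowers_iff.1 (hτ ζ')
  refine ⟨fun i => i.elim k e, ?_⟩
  rw [Fintype.prod_option]
  simp only [Option.elim_none, Option.elim_some]
  rw [hu]
  simp only
  rw [← hk]
  simp

theorem card_generators (hp2 : 2 < p) :
    Fintype.card (Option (Fin (Units.rank K))) = (p - 1) / 2 := by
  have h1 := IsCyclotomicExtension.Rat.nrComplexPlaces_eq_totient_div_two p K
  have h2 := IsCyclotomicExtension.Rat.nrRealPlaces_eq_zero (n := p) K hp2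
  have h3 := InfinitePlace.card_eq_nrRealPlaces_add_nrComplexPlaces K
  rw [Nat.totient_prime hp.out] at h1
  rw [Fintype.card_option, Fintype.card_fin, Units.rank, h3, h1, h2]
  omega

theorem kummer_of_linearIndependent (hp2 : 2 < p) {κ : Type*} [Fintype κ]
    (hκ : (p - 1) / 2 ≤ Fintype.card κ) (w : κ → (𝓞 K)ˣ)
    (hw : LinearIndependent (ZMod p) (fun i => phi hζ (Additive.ofMul (w i))))
    (u : (𝓞 K)ˣ) (a : ℤ) (h : (p : 𝓞 K) ∣ (u : 𝓞 K) - a) : ∃ v : (𝓞 K)ˣ, u = v ^ p := by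
  obtain ⟨g, hg⟩ := exists_generators K
  exact exists_pow_eq_of_map_eq_zero (p := p) ((card_generators (K := K) hp2).le.trans hκ)
    (phi hζ) g hg w hw u (phi_eq_zero_of_dvd hζ u a h)

/-- the unit `ζ` -/
noncomputable def zetaUnit : (𝓞 K)ˣ := (hζ.toInteger_isPrimitiveRoot.isUnit hp.out.ne_zero).unit

/-- the cyclotomic unit `1 + ζ + ... + ζ^(a-1)` -/
noncomputable def cycUnit (a : ℕ) (ha : a.Coprime p) : (𝓞 K)ˣ :=
  (hζ.toInteger_isPrimitiveRoot.geom_sum_isUnit hp.out.two_le ha).unit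

theorem Psi_zetaUnit : Psi hζ (zetaUnit hζ : 𝓞 K) = zz p := Psi_toInteger hζ

theorem fst_Psi_cycUnit (a : ℕ) (ha : a.Coprime p) :
    (Psi hζ (cycUnit hζ a ha : 𝓞 K)).fst = ∑ i ∈ Finset.range a, (1 + tt p) ^ i := by
  have : (cycUnit hζ a ha : 𝓞 K) = ∑ i ∈ Finset.range a, hζ.toInteger ^ i := rfl
  rw [this, map_sum, TrivSqZeroExt.fst_sum]
  refine Finset.sum_congr rfl fun i _ => ?_
  rw [map_pow, Psi_toInteger, TrivSqZeroExt.fst_pow, fst_zz]

theorem snd_Psi_cycUnit (a : ℕ) (ha : a.Coprime p) :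
    (Psi hζ (cycUnit hζ a ha : 𝓞 K)).snd =
      ∑ i ∈ Finset.range a, (i : R1 p) * (1 + tt p) ^ (i - 1) := by
  have : (cycUnit hζ a ha : 𝓞 K) = ∑ i ∈ Finset.range a, hζ.toInteger ^ i := rfl
  rw [this, map_sum, TrivSqZeroExt.snd_sum]
  refine Finset.sum_congr rfl fun i _ => ?_
  rw [map_pow, Psi_toInteger, TrivSqZeroExt.snd_pow, fst_zz, snd_zz, Nat.pred_eq_sub_one,
    smul_eq_mul, mul_one, nsmul_eq_mul]

omit hp in
theorem linearIndependent_tt_pow (p : ℕ) [Fact p.Prime] :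
    LinearIndependent (ZMod p) (fun k : Fin (p - 2) => tt p ^ (k : ℕ)) := by
  have hm : ((X : (ZMod p)[X]) ^ (p - 2)).Monic := monic_X_pow _
  have h1 := (AdjoinRoot.powerBasis' hm).basis.linearIndependent
  have hd : (AdjoinRoot.powerBasis' hm).dim = p - 2 := by simp
  have h2 := h1.comp (Fin.cast hd.symm) (Fin.cast_injective _)
  have h3 : (fun k : Fin (p - 2) => tt p ^ (k : ℕ)) =
      (AdjoinRoot.powerBasis' hm).basis ∘ Fin.cast hd.symm := by
    ext k
    simp [tt]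
  rw [h3]
  exact h2

/-- the linear map sending a coefficient vector to the truncated polynomial -/
noncomputable def ofCoeffs (p : ℕ) [Fact p.Prime] : (Fin (p - 2) → ZMod p) →ₗ[ZMod p] R1 p :=
  Fintype.linearCombination (ZMod p) (fun k : Fin (p - 2) => tt p ^ (k : ℕ))

omit hp in
theorem ofCoeffs_apply (p : ℕ) [Fact p.Prime] (c : Fin (p - 2) → ZMod p) :
    ofCoeffs p c = ∑ k, c k • tt p ^ (k : ℕ) := by
  simp [ofCoeffs, Fintype.linearCombination_apply]

omit hp in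
theorem ker_ofCoeffs (p : ℕ) [Fact p.Prime] : LinearMap.ker (ofCoeffs p) = ⊥ := by
  have := linearIndependent_tt_pow p
  rw [LinearMap.ker_eq_bot]
  exact linearIndependent_iff_injective_fintypeLinearCombination.1 this

theorem kummer_of_certificate (hp2 : 2 < p) {s : ℕ} (hs : (p - 1) / 2 ≤ s)
    (w : Fin s → (𝓞 K)ˣ) (M : Matrix (Fin s) (Fin (p - 2)) (ZMod p))
    (R : Matrix (Fin (p - 2)) (Fin s) (ZMod p)) (hMR : M * R = 1)
    (hw : ∀ i, (Psi hζ (w i : 𝓞 K)).snd = ofCoeffs p (M i) * (Psi hζ (w i : 𝓞 K)).fst)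
    (u : (𝓞 K)ˣ) (a : ℤ) (h : (p : 𝓞 K) ∣ (u : 𝓞 K) - a) : ∃ v : (𝓞 K)ˣ, u = v ^ p := by
  refine kummer_of_linearIndependent hζ hp2 (κ := Fin s) (by simpa using hs) w ?_ u a h
  have h1 : (fun i => phi hζ (Additive.ofMul (w i))) = fun i => ofCoeffs p (M i) := by
    ext i
    exact phi_eq_of_snd_eq hζ (w i) _ (hw i)
  rw [h1]
  exact (linearIndependent_of_mul_eq_one M R hMR).map' (ofCoeffs p) (ker_ofCoeffs p)

end Psi

end Fermat.Agent.KummerLemma
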