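import Fermat.Agent.Lib.KummerLemma

set_option autoImplicit false

namespace Fermat.Agent.KummerLemma

open NumberField Polynomial

theorem fact_prime_seven : Fact (Nat.Prime 7) := ⟨by norm_num⟩

attribute [local instance] fact_prime_seven

theorem kummer_seven {K : Type*} [Field K] [NumberField K]
    [IsCyclotomicExtension {7} ℚ K]
    (u : (𝓞 K)ˣ) (a : ℤ) (h : ((7 : ℕ) : 𝓞 K) ∣ (u : 𝓞 K) - a) : ∃ v : (𝓞 K)ˣ, u = v ^ 7 := by
  have hζ := IsCyclotomicExtension.zeta_spec 7 ℚ K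
  have hT : tt 7 ^ 5 = 0 := tt_pow 7
  have hP : (7 : R1 7) = 0 := by exact_mod_cast natCast_R1 7
  have h0 : (Psi hζ (zetaUnit hζ : 𝓞 K)).snd =
      ofCoeffs 7 ![1, 6, 1, 6, 1] * (Psi hζ (zetaUnit hζ : 𝓞 K)).fst := by
    rw [Psi_zetaUnit, fst_zz, snd_zz, ofCoeffs_apply]
    simp [Fin.sum_univ_succ, Algebra.smul_def, map_ofNat]
    linear_combination ((-1)) * hT + ((-1) * tt 7 + (-1) * tt 7 ^ 2 + (-1) * tt 7 ^ 3 + (-1) * tt 7 ^ 4) * hP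
  have h1 : (Psi hζ (cycUnit hζ 2 (by norm_num) : 𝓞 K)).snd =
      ofCoeffs 7 ![4, 5, 1, 3, 2] * (Psi hζ (cycUnit hζ 2 (by norm_num) : 𝓞 K)).fst := by
    rw [fst_Psi_cycUnit, snd_Psi_cycUnit, ofCoeffs_apply]
    simp [Fin.sum_univ_succ, Algebra.smul_def, Finset.sum_range_succ, map_ofNat]
    linear_combination ((-2)) * hT + ((-1) + (-2) * tt 7 + (-1) * tt 7 ^ 2 + (-1) * tt 7 ^ 3 + (-1) * tt 7 ^ 4) * hP
  have h2 : (Psi hζ (cycUnit hζ 3 (by norm_num) : 𝓞 K)).snd =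
      ofCoeffs 7 ![1, 2, 0, 4, 3] * (Psi hζ (cycUnit hζ 3 (by norm_num) : 𝓞 K)).fst := by
    rw [fst_Psi_cycUnit, snd_Psi_cycUnit, ofCoeffs_apply]
    simp [Fin.sum_univ_succ, Algebra.smul_def, Finset.sum_range_succ, map_ofNat]
    linear_combination ((-13) + (-3) * tt 7) * hT + ((-1) * tt 7 + (-1) * tt 7 ^ 2 + (-2) * tt 7 ^ 3 + (-3) * tt 7 ^ 4) * hP
  refine kummer_of_certificate (p := 7) hζ (by norm_num) (s := 3) (by norm_num)
    ![zetaUnit hζ, cycUnit hζ 2 (by norm_num), cycUnit hζ 3 (by norm_num)]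
    !![1, 6, 1, 6, 1; 4, 5, 1, 3, 2; 1, 2, 0, 4, 3]
    !![0, 3, 3; 5, 4, 0; 0, 0, 0; 1, 6, 3; 0, 0, 0]
    (by decide +kernel) ?_ u a h
  intro i
  fin_cases i
  · exact h0
  · exact h1
  · exact h2

end Fermat.Agent.KummerLemma
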