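import Fermat.Agent.Lib.KummerLemma

set_option autoImplicit false

namespace Fermat.Agent.KummerLemma

open NumberField Polynomial

theorem fact_prime_thirteen : Fact (Nat.Prime 13) := ⟨by norm_num⟩

attribute [local instance] fact_prime_thirteen

theorem kummer_thirteen {K : Type*} [Field K] [NumberField K]
    [IsCyclotomicExtension {13} ℚ K]
    (u : (𝓞 K)ˣ) (a : ℤ) (h : ((13 : ℕ) : 𝓞 K) ∣ (u : 𝓞 K) - a) : ∃ v : (𝓞 K)ˣ, u = v ^ 13 := by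
  have hζ := IsCyclotomicExtension.zeta_spec 13 ℚ K
  have hT : tt 13 ^ 11 = 0 := tt_pow 13
  have hP : (13 : R1 13) = 0 := by exact_mod_cast natCast_R1 13
  have h0 : (Psi hζ (zetaUnit hζ : 𝓞 K)).snd =
      ofCoeffs 13 ![1, 12, 1, 12, 1, 12, 1, 12, 1, 12, 1] * (Psi hζ (zetaUnit hζ : 𝓞 K)).fst := by
    rw [Psi_zetaUnit, fst_zz, snd_zz, ofCoeffs_apply]
    simp [Fin.sum_univ_succ, Algebra.smul_def, map_ofNat]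
    linear_combination ((-1)) * hT + ((-1) * tt 13 + (-1) * tt 13 ^ 2 + (-1) * tt 13 ^ 3 + (-1) * tt 13 ^ 4 + (-1) * tt 13 ^ 5 + (-1) * tt 13 ^ 6 + (-1) * tt 13 ^ 7 + (-1) * tt 13 ^ 8 + (-1) * tt 13 ^ 9 + (-1) * tt 13 ^ 10) * hP
  have h1 : (Psi hζ (cycUnit hζ 2 (by norm_num) : 𝓞 K)).snd =
      ofCoeffs 13 ![7, 3, 5, 4, 11, 1, 6, 10, 8, 9, 2] * (Psi hζ (cycUnit hζ 2 (by norm_num) : 𝓞 K)).fst := by
    rw [fst_Psi_cycUnit, snd_Psi_cycUnit, ofCoeffs_apply]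
    simp [Fin.sum_univ_succ, Algebra.smul_def, Finset.sum_range_succ, map_ofNat]
    linear_combination ((-2)) * hT + ((-1) + (-1) * tt 13 + (-1) * tt 13 ^ 2 + (-1) * tt 13 ^ 3 + (-2) * tt 13 ^ 4 + (-1) * tt 13 ^ 5 + (-1) * tt 13 ^ 6 + (-2) * tt 13 ^ 7 + (-2) * tt 13 ^ 8 + (-2) * tt 13 ^ 9 + (-1) * tt 13 ^ 10) * hP
  have h2 : (Psi hζ (cycUnit hζ 3 (by norm_num) : 𝓞 K)).snd =
      ofCoeffs 13 ![1, 4, 0, 3, 10, 2, 12, 9, 0, 10, 3] * (Psi hζ (cycUnit hζ 3 (by norm_num) : 𝓞 K)).fst := by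
    rw [fst_Psi_cycUnit, snd_Psi_cycUnit, ofCoeffs_apply]
    simp [Fin.sum_univ_succ, Algebra.smul_def, Finset.sum_range_succ, map_ofNat]
    linear_combination ((-19) + (-3) * tt 13) * hT + ((-1) * tt 13 + (-1) * tt 13 ^ 2 + (-1) * tt 13 ^ 3 + (-3) * tt 13 ^ 4 + (-3) * tt 13 ^ 5 + (-4) * tt 13 ^ 6 + (-5) * tt 13 ^ 7 + (-3) * tt 13 ^ 8 + (-3) * tt 13 ^ 9 + (-3) * tt 13 ^ 10) * hP
  have h3 : (Psi hζ (cycUnit hζ 4 (by norm_num) : 𝓞 K)).snd =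
      ofCoeffs 13 ![8, 3, 11, 11, 1, 1, 11, 5, 4, 9, 4] * (Psi hζ (cycUnit hζ 4 (by norm_num) : 𝓞 K)).fst := by
    rw [fst_Psi_cycUnit, snd_Psi_cycUnit, ofCoeffs_apply]
    simp [Fin.sum_univ_succ, Algebra.smul_def, Finset.sum_range_succ, map_ofNat]
    linear_combination ((-64) + (-25) * tt 13 + (-4) * tt 13 ^ 2) * hT + ((-2) + (-4) * tt 13 + (-7) * tt 13 ^ 2 + (-10) * tt 13 ^ 3 + (-9) * tt 13 ^ 4 + (-5) * tt 13 ^ 5 + (-5) * tt 13 ^ 6 + (-7) * tt 13 ^ 7 + (-7) * tt 13 ^ 8 + (-7) * tt 13 ^ 9 + (-7) * tt 13 ^ 10) * hP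
  have h4 : (Psi hζ (cycUnit hζ 5 (by norm_num) : 𝓞 K)).snd =
      ofCoeffs 13 ![2, 0, 12, 6, 0, 2, 11, 4, 7, 3, 5] * (Psi hζ (cycUnit hζ 5 (by norm_num) : 𝓞 K)).fst := by
    rw [fst_Psi_cycUnit, snd_Psi_cycUnit, ofCoeffs_apply]
    simp [Fin.sum_univ_succ, Algebra.smul_def, Finset.sum_range_succ, map_ofNat]
    linear_combination ((-119) + (-72) * tt 13 + (-28) * tt 13 ^ 2 + (-5) * tt 13 ^ 3) * hT + ((-5) * tt 13 ^ 2 + (-12) * tt 13 ^ 3 + (-14) * tt 13 ^ 4 + (-10) * tt 13 ^ 5 + (-9) * tt 13 ^ 6 + (-12) * tt 13 ^ 7 + (-15) * tt 13 ^ 8 + (-14) * tt 13 ^ 9 + (-12) * tt 13 ^ 10) * hP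
  have h5 : (Psi hζ (cycUnit hζ 6 (by norm_num) : 𝓞 K)).snd =
      ofCoeffs 13 ![9, 8, 3, 8, 9, 1, 6, 7, 6, 7, 6] * (Psi hζ (cycUnit hζ 6 (by norm_num) : 𝓞 K)).fst := by
    rw [fst_Psi_cycUnit, snd_Psi_cycUnit, ofCoeffs_apply]
    simp [Fin.sum_univ_succ, Algebra.smul_def, Finset.sum_range_succ, map_ofNat]
    linear_combination ((-368) + (-268) * tt 13 + (-138) * tt 13 ^ 2 + (-43) * tt 13 ^ 3 + (-6) * tt 13 ^ 4) * hT + ((-3) + (-11) * tt 13 + (-21) * tt 13 ^ 2 + (-28) * tt 13 ^ 3 + (-31) * tt 13 ^ 4 + (-31) * tt 13 ^ 5 + (-29) * tt 13 ^ 6 + (-26) * tt 13 ^ 7 + (-26) * tt 13 ^ 8 + (-29) * tt 13 ^ 9 + (-31) * tt 13 ^ 10) * hP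
  refine kummer_of_certificate (p := 13) hζ (by norm_num) (s := 6) (by norm_num)
    ![zetaUnit hζ, cycUnit hζ 2 (by norm_num), cycUnit hζ 3 (by norm_num), cycUnit hζ 4 (by norm_num), cycUnit hζ 5 (by norm_num), cycUnit hζ 6 (by norm_num)]
    !![1, 12, 1, 12, 1, 12, 1, 12, 1, 12, 1; 7, 3, 5, 4, 11, 1, 6, 10, 8, 9, 2; 1, 4, 0, 3, 10, 2, 12, 9, 0, 10, 3; 8, 3, 11, 11, 1, 1, 11, 5, 4, 9, 4; 2, 0, 12, 6, 0, 2, 11, 4, 7, 3, 5; 9, 8, 3, 8, 9, 1, 6, 7, 6, 7, 6]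
    !![1, 10, 12, 7, 4, 4; 3, 2, 12, 11, 2, 1; 0, 0, 0, 0, 0, 0; 3, 10, 2, 9, 2, 2; 0, 0, 0, 0, 0, 0; 9, 7, 4, 9, 7, 11; 0, 0, 0, 0, 0, 0; 7, 11, 0, 6, 1, 1; 0, 0, 0, 0, 0, 0; 4, 6, 7, 11, 5, 2; 0, 0, 0, 0, 0, 0]
    (by decide +kernel) ?_ u a h
  intro i
  fin_cases i
  · exact h0
  · exact h1
  · exact h2
  · exact h3
  · exact h4
  · exact h5

end Fermat.Agent.KummerLemma
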