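import Fermat.Agent.S27.AJ.Main
import Fermat.Agent.S27.L.Main

/-!
# `Pic0` of a function field over an algebraically closed field of characteristic `0` is divisible
(helper12; shared by S17/DIV and S19/ND-DIV)

`pic0_divisible : IsFF K F → 0 < m → ∀ x : Pic0 K F, ∃ z, m • z = x`.

* over `ℂ`: `Pic0` is a quotient of `ℂ ^ g` (`S27.exists_Phi`, `S27.surj_Phi`);
* over a field which embeds in `ℂ`: the set of the `z` with `m • z = x` is finite, nonempty, and stable under the
  semilinear automorphisms which fix the small function field: so its elements descend (argument of `S27/L/Gal.lean`);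
* in general: `x` is defined over such a field (`S27.L.exists_sub`).
-/

set_option autoImplicit false

noncomputable section

namespace Fermat.Agent.PicDiv

open AlgebraicCurve Fermat.Agent.S37 Fermat.Agent.S27 Fermat.Agent.S27.L

section Gal

variable {K0 K1 F0 F1 : Type*} [Field K0] [Field K1] [Field F0] [Field F1]
  [Algebra K0 F0] [Algebra K1 F1] {j : K0 →+* K1} {ι : F0 →+* F1}
  [IsAlgClosed K0] [CharZero K0] [IsAlgClosed K1] [CharZero K1]

/-- copy of `S27.L.support_subset_range` with a finite `Fix`-stable set instead of the torsion -/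
theorem support_subset_range_of_finite (H : BC j ι) (T : Set (Pic0 K1 F1)) (hfin : T.Finite)
    (hstab : ∀ g : SemilinearAut K1 F1, Fix ι g → ∀ y ∈ T, g • y ∈ T)
    (D : Divisor.degZero (K := K1) (F := F1)) (hx : Pic0.mk D ∈ T)
    (p0 : Place K0 F0) (r : ℕ) (E : Divisor K1 F1) (hE : ∀ Q, 0 ≤ E Q)
    (hED : E - (D : Divisor K1 F1) - Finsupp.single (ext H p0) (r : ℤ) ∈
      Divisor.principal (K := K1) (F := F1))
    (huniq : ∀ E' : Divisor K1 F1, (∀ Q, 0 ≤ E' Q) →
      E' - E ∈ Divisor.principal (K := K1) (F := F1) → E' = E) :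
    ∀ Q ∈ E.support, ∃ P, Q = ext H P := by
  intro Q hQ
  by_contra hcon
  push Not at hcon
  have hord : ∀ f : F0, Q.ord (ι f) = 0 := by
    intro f
    by_contra hf
    obtain ⟨P, hP⟩ := exists_eq_ext H Q hf
    exact hcon P hP
  obtain ⟨y, hy, -⟩ := H.ff0
  have hreg : Reg Q (ι y) := by rw [reg_iff, hord]
  obtain ⟨c, hc⟩ : ∃ c, c = val Q (ι y) := ⟨_, rfl⟩
  have hcj : c ∉ Set.range j := by
    rintro ⟨c0, hc0⟩
    have h1 := van_sub_val H.ff1 hreg
    rw [← hc, ← hc0, ← H.comm, ← map_sub] at h1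
    rcases h1 with h1 | h1
    · have h2 : y - algebraMap K0 F0 c0 = 0 := (map_eq_zero ι).1 h1
      apply hy
      rw [sub_eq_zero.1 h2]
      exact isAlgebraic_algebraMap c0
    · rw [hord] at h1
      exact lt_irrefl _ h1
  choose σ hσ1 hσ2 using fun n : ℕ => exists_aut j c hcj n
  choose g hg1 hg2 using fun n : ℕ => exists_lift H (σ n) (hσ1 n)
  have : Finite T := hfin
  let φ : ℕ → T :=
    fun n => ⟨g n • Pic0.mk D, hstab (g n) (hg2 n) _ hx⟩
  obtain ⟨x0, hx0⟩ := Finite.exists_infinite_fiber φ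
  have hS1 : (φ ⁻¹' {x0}).Infinite := Set.infinite_coe_iff.1 hx0
  obtain ⟨n0, hn0⟩ := hS1.nonempty
  let t : ℕ → SemilinearAut K1 F1 := fun n => (g n0)⁻¹ * g n
  have htfix : ∀ n, Fix ι (t n) := by
    intro n f
    show ((g n0)⁻¹ * g n) • ι f = ι f
    rw [mul_smul, hg2 n f, inv_smul_eq_iff, hg2 n0 f]
  have htx : ∀ n ∈ φ ⁻¹' {x0}, t n • Pic0.mk D = Pic0.mk D := by
    intro n hn
    show ((g n0)⁻¹ * g n) • Pic0.mk D = Pic0.mk D
    rw [mul_smul, inv_smul_eq_iff]
    have h1 : φ n = φ n0 := Eq.trans hn (Eq.symm hn0)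
    exact congrArg Subtype.val h1
  have htE : ∀ n ∈ φ ⁻¹' {x0}, t n • E = E := by
    intro n hn
    apply huniq
    · intro Q'
      rw [SemilinearAut.divisor_smul_apply]
      exact hE _
    · have h1 := SemilinearAut.smul_mem_principal (t n) hED
      rw [smul_sub, smul_sub, SemilinearAut.smul_single, smul_ext H (htfix n)] at h1
      have h2 : t n • (D : Divisor K1 F1) - D ∈ Divisor.principal (K := K1) (F := F1) := by
        have h3 := htx n hn
        rw [SemilinearAut.pic0_smul_mk] at h3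
        have h4 := QuotientAddGroup.eq.1 h3
        rw [AddSubgroup.mem_addSubgroupOf] at h4
        have h5 := neg_mem h4
        have h6 : -(((-(SemilinearAut.degZeroSMulHom (t n) D) + D :
            Divisor.degZero (K := K1) (F := F1)) : Divisor K1 F1)) =
            t n • (D : Divisor K1 F1) - D := by
          rw [AddSubgroup.coe_add, AddSubgroup.coe_neg, SemilinearAut.coe_degZeroSMulHom]
          abel
        rwa [h6] at h5
      have h3 : t n • E - E = (t n • E - t n • (D : Divisor K1 F1) -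
          Finsupp.single (ext H p0) (r : ℤ)) -
          (E - (D : Divisor K1 F1) - Finsupp.single (ext H p0) (r : ℤ)) +
          (t n • (D : Divisor K1 F1) - D) := by abel
      rw [h3]
      exact add_mem (sub_mem h1 hED) h2
  have hmaps : Set.MapsTo (fun n => t n • Q) (φ ⁻¹' {x0}) (E.support : Set (Place K1 F1)) := by
    intro n hn
    rw [Finset.mem_coe, Finsupp.mem_support_iff]
    have h1 := SemilinearAut.divisor_smul_apply_smul (t n) E Q
    rw [htE n hn] at h1
    show E (t n • Q) ≠ 0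
    rw [h1]
    exact Finsupp.mem_support_iff.1 hQ
  obtain ⟨n, hn, n', hn', hne, heq⟩ :=
    hS1.exists_ne_map_eq_of_mapsTo hmaps E.support.finite_toSet
  have heq' : t n • Q = t n' • Q := heq
  have hval : ∀ n, val (t n • Q) (ι y) = (σ n0).symm (c + n) := by
    intro n
    have h1 := val_smul H.ff1 (t n) Q hreg
    rw [htfix n y] at h1
    rw [h1, ← hc]
    show SemilinearAut.baseAut ((g n0)⁻¹ * g n) c = _
    rw [SemilinearAut.baseAut_mul, SemilinearAut.baseAut_inv, hg1, hg1, ← hσ2 n]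
    rfl
  have h1 := hval n
  rw [heq', hval n'] at h1
  have h2 := (σ n0).symm.injective h1
  have h3 : (n' : K1) = n := add_left_cancel h2
  exact hne (Nat.cast_injective h3).symm

/-- copy of `S27.L.exists_extPic_eq` with a finite `Fix`-stable set instead of the torsion -/
theorem exists_extPic_eq_of_finite (H : BC j ι) (T : Set (Pic0 K1 F1)) (hfin : T.Finite)
    (hstab : ∀ g : SemilinearAut K1 F1, Fix ι g → ∀ y ∈ T, g • y ∈ T)
    (x : Pic0 K1 F1) (hx : x ∈ T) : ∃ x0 : Pic0 K0 F0, extPic H x0 = x := by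
  obtain ⟨D, rfl⟩ := Pic0.mk_surjective x
  have := infinite_place H.ff0
  let p0 : Place K0 F0 := Classical.arbitrary _
  obtain ⟨r, E, hE, hED, huniq⟩ :=
    exists_unique_effective H.ff1 (D : Divisor K1 F1) D.2 (ext H p0)
  obtain ⟨E0, hE0⟩ := exists_extD_eq H E 
    (support_subset_range_of_finite H T hfin hstab D hx p0 r E hE hED huniq)
  have hdegE : Divisor.degree E = r := by
    obtain ⟨u, hu0, hu⟩ := hED
    have h1 : E - (D : Divisor K1 F1) - Finsupp.single (ext H p0) (r : ℤ) = AR.dv H.ff1 u := by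
      ext v
      rw [hu, AR.dv_apply _ hu0]
    have h2 := congrArg Divisor.degree h1
    have h3 : Divisor.degree (D : Divisor K1 F1) = 0 := D.2
    rw [map_sub, map_sub, AR.degree_dv, Divisor.degree_single, H.ff1.deg_eq_one, h3] at h2
    simp only [Nat.cast_one, mul_one, sub_zero] at h2
    omega
  have hD0 : E0 - Finsupp.single p0 (r : ℤ) ∈ Divisor.degZero (K := K0) (F := F0) := by
    rw [Divisor.mem_degZero, map_sub, ← degree_extD H, hE0, hdegE, Divisor.degree_single,
      H.ff0.deg_eq_one]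
    simp
  refine ⟨Pic0.mk ⟨_, hD0⟩, ?_⟩
  rw [extPic_mk]
  apply QuotientAddGroup.eq.2
  rw [AddSubgroup.mem_addSubgroupOf, AddSubgroup.coe_add, AddSubgroup.coe_neg, coe_extD0]
  show -(extD H (E0 - Finsupp.single p0 (r : ℤ))) + (D : Divisor K1 F1) ∈ _
  rw [map_sub, hE0, extD_single]
  have h1 := neg_mem hED
  have h2 : -(E - (D : Divisor K1 F1) - Finsupp.single (ext H p0) (r : ℤ)) =
      -(E - Finsupp.single (ext H p0) (r : ℤ)) + (D : Divisor K1 F1) := by abel
  rwa [h2] at h1

end Gal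

/-- the complex case -/
theorem pic0_divisible_complex {F : Type*} [Field F] [Algebra ℂ F] (h : IsFF ℂ F) (m : ℕ)
    (hm : 0 < m) (x : Pic0 ℂ F) : ∃ z : Pic0 ℂ F, m • z = x := by
  have hfin := finite_H1 h (0 : Divisor ℂ F)
  have hrank : Module.finrank ℂ (WD (0 : Divisor ℂ F)) = genusFF ℂ F :=
    Subspace.dual_finrank_eq
  let b : Module.Basis (Fin (genusFF ℂ F)) ℂ (WD (0 : Divisor ℂ F)) :=
    Module.finBasisOfFinrankEq ℂ _ hrank
  obtain ⟨Φ, hP1, -⟩ := exists_Phi h rfl b
  obtain ⟨v, rfl⟩ := surj_Phi h Φ hP1 x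
  refine ⟨Φ ((m : ℂ)⁻¹ • v), ?_⟩
  rw [← map_nsmul]
  congr 1
  have hm0 : (m : ℂ) ≠ 0 := Nat.cast_ne_zero.2 hm.ne'
  rw [← Nat.cast_smul_eq_nsmul ℂ, smul_smul, mul_inv_cancel₀ hm0, one_smul]

universe u v

/-- a `Fix`-automorphism fixes the extended classes -/
theorem smul_extPic {K0 K1 F0 F1 : Type*} [Field K0] [Field K1] [Field F0] [Field F1]
    [Algebra K0 F0] [Algebra K1 F1] {j : K0 →+* K1} {ι : F0 →+* F1}
    [IsAlgClosed K0] [CharZero K0] [IsAlgClosed K1] [CharZero K1]
    (H : BC j ι) {g : SemilinearAut K1 F1} (hg : Fix ι g) (x : Pic0 K0 F0) :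
    g • extPic H x = extPic H x := by
  obtain ⟨D, rfl⟩ := Pic0.mk_surjective x
  rw [extPic_mk, SemilinearAut.pic0_smul_mk]
  congr 1
  apply Subtype.ext
  rw [SemilinearAut.coe_degZeroSMulHom, coe_extD0, smul_extD H hg]

/-- the case of a field which embeds into `ℂ` -/
theorem pic0_divisible_of_emb {K3 : Type u} {F3 : Type v} [Field K3] [Field F3] [Algebra K3 F3]
    [IsAlgClosed K3] [CharZero K3] (h3 : IsFF K3 F3) (jC : K3 →+* ℂ) (m : ℕ) (hm : 0 < m)
    (x : Pic0 K3 F3) : ∃ z : Pic0 K3 F3, m • z = x := by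
  obtain ⟨F', _, _, ι', H'⟩ := exists_bc jC h3
  obtain ⟨z1, hz1⟩ := pic0_divisible_complex H'.ff1 m hm (extPic H' x)
  have hfinT : Finite (Pic0.torsion ℂ F' m) := by
    apply Nat.finite_of_card_ne_zero
    rw [complex_case F' H'.ff1 m hm]
    exact (pow_pos hm _).ne'
  let T : Set (Pic0 ℂ F') := {z | m • z = extPic H' x}
  have hT : T.Finite := by
    have hsub : T ⊆ (fun t : Pic0 ℂ F' => t + z1) '' (Pic0.torsion ℂ F' m : Set (Pic0 ℂ F')) := by
      intro z hz
      refine ⟨z - z1, ?_, by simp⟩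
      have hz' : m • z = extPic H' x := hz
      show z - z1 ∈ Pic0.torsion ℂ F' m
      rw [Pic0.mem_torsion, natCast_zsmul, nsmul_sub, hz', hz1, sub_self]
    exact ((Set.toFinite _).image _).subset hsub
  have hstab : ∀ g : SemilinearAut ℂ F', Fix ι' g → ∀ y ∈ T, g • y ∈ T := by
    intro g hg y hy
    have hy' : m • y = extPic H' x := hy
    show m • (g • y) = extPic H' x
    rw [← smul_extPic H' hg x, ← hy']
    exact (map_nsmul (DistribSMul.toAddMonoidHom (Pic0 ℂ F') g) m y).symm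
  obtain ⟨z0, hz0⟩ := exists_extPic_eq_of_finite H' T hT hstab z1 hz1
  refine ⟨z0, extPic_injective H' ?_⟩
  rw [map_nsmul, hz0, hz1]

/-- **`Pic0` is divisible.** -/
theorem pic0_divisible {K : Type u} {F : Type v} [Field K] [Field F] [Algebra K F] [IsAlgClosed K]
    [CharZero K] (h : IsFF K F) (m : ℕ) (hm : 0 < m) (x : Pic0 K F) :
    ∃ z : Pic0 K F, m • z = x := by
  classical
  obtain ⟨D, rfl⟩ := Pic0.mk_surjective x
  obtain ⟨K3, F3, _, _, _, _, _, j, ι, jC, H, hS⟩ := exists_sub h (D : Divisor K F).support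
  obtain ⟨E0, hE0⟩ := exists_extD_eq H (D : Divisor K F) hS
  have hdeg : E0 ∈ Divisor.degZero (K := K3) (F := F3) := by
    rw [Divisor.mem_degZero, ← degree_extD H, hE0]
    exact Divisor.mem_degZero.1 D.2
  have hx0 : extPic H (Pic0.mk ⟨E0, hdeg⟩) = Pic0.mk D := by
    rw [extPic_mk]
    exact congrArg Pic0.mk (Subtype.ext hE0)
  obtain ⟨z0, hz0⟩ := pic0_divisible_of_emb H.ff0 jC m hm (Pic0.mk ⟨E0, hdeg⟩)
  refine ⟨extPic H z0, ?_⟩
  rw [← map_nsmul, hz0, hx0]

end Fermat.Agent.PicDiv
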