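import Mathlib
import Fermat.Agent.S02

set_option autoImplicit false

namespace Fermat.Agent.S01Wiring

/-- Fermat's Last Theorem follows from the non-existence of Frey packages. -/
theorem flt_of_no_frey (h : FreyPackage → False) : FermatLastTheorem := by
  apply FermatLastTheorem.of_odd_primes
  intro p pp hodd
  by_cases hp3 : p = 3
  · subst hp3; exact fermatLastTheoremThree
  have hp5 : 5 ≤ p := by
    have h2 := pp.two_le
    rcases hodd with ⟨k, hk⟩
    by_contra hlt
    have : p = 3 := by omega
    exact hp3 this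
  rw [fermatLastTheoremFor_iff_int]
  intro a b c ha hb hc H
  obtain ⟨P⟩ := Fermat.Agent.S02.result a b c ha hb hc p pp hp5 H
  exact h P

theorem result_of_no_frey (h : FreyPackage → False) (n : ℕ) (hn : 3 ≤ n) (a b c : ℕ)
    (ha : 0 < a) (hb : 0 < b) (hc : 0 < c) : a ^ n + b ^ n ≠ c ^ n :=
  flt_of_no_frey h n hn a b c ha.ne' hb.ne' hc.ne'

end Fermat.Agent.S01Wiring
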